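/-
S25 (Jacobian), package TWIST (point families; old A9), helper3108.  Mathlib-only (imports Trace.lean).

Graph ideals.  For `k`-algebras `A`, `R` and an `R`-point `y : R ⊗[k] A →ₐ[R] R`
(equivalently `x : A →ₐ[k] R`), the graph ideal `ker y` of `R ⊗[k] A` is an invertible module
as soon as the diagonal ideal `ker (A ⊗[k] A → A)` is.  No hypothesis on `R` at all
(not noetherian, not of finite type): functionals on the diagonal ideal are transported by hand.
-/
import Fermat.Agent.S25.TWIST.G1.H3108.Trace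

set_option autoImplicit false

universe u

namespace Fermat.Agent.S25.TWIST.G1.H3108

open scoped TensorProduct

section Graph

variable (k : Type u) [CommRing k] (A : Type u) [CommRing A] [Algebra k A]

/-- The diagonal ideal of `A ⊗[k] A`. -/
def diagIdeal : Ideal (A ⊗[k] A) :=
  RingHom.ker ((Algebra.TensorProduct.lmul' k (S := A)) : A ⊗[k] A →+* A)

variable {k A}

lemma mem_diagIdeal {i : A ⊗[k] A} :
    i ∈ diagIdeal k A ↔ Algebra.TensorProduct.lmul' k (S := A) i = 0 := Iff.rfl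

/-- `a ↦ 1 ⊗ a - a ⊗ 1`, as a `k`-linear map into the diagonal ideal. -/
def diagD : A →ₗ[k] diagIdeal k A where
  toFun a := ⟨1 ⊗ₜ[k] a - a ⊗ₜ[k] 1, by
    rw [mem_diagIdeal, map_sub, Algebra.TensorProduct.lmul'_apply_tmul,
      Algebra.TensorProduct.lmul'_apply_tmul, one_mul, mul_one, sub_self]⟩
  map_add' a b := Subtype.ext (by
    change (1 : A) ⊗ₜ[k] (a + b) - (a + b) ⊗ₜ[k] (1 : A) =
      ((1 : A) ⊗ₜ[k] a - a ⊗ₜ[k] (1 : A)) + ((1 : A) ⊗ₜ[k] b - b ⊗ₜ[k] (1 : A))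
    rw [TensorProduct.tmul_add, TensorProduct.add_tmul]; abel)
  map_smul' c a := Subtype.ext (by
    change (1 : A) ⊗ₜ[k] (c • a) - (c • a) ⊗ₜ[k] (1 : A) =
      c • ((1 : A) ⊗ₜ[k] a - a ⊗ₜ[k] (1 : A))
    rw [smul_sub, TensorProduct.tmul_smul, ← TensorProduct.smul_tmul' c a (1 : A)])

lemma diagD_coe (a : A) : ((diagD (k := k) a : diagIdeal k A) : A ⊗[k] A)
    = 1 ⊗ₜ[k] a - a ⊗ₜ[k] 1 := rfl

/-- `i ↦ i - μ(i) ⊗ 1`, the projection of `A ⊗ A` onto the diagonal ideal. -/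
def diagP : A ⊗[k] A →ₗ[k] diagIdeal k A where
  toFun i := ⟨i - (Algebra.TensorProduct.lmul' k (S := A) i) ⊗ₜ[k] 1, by
    rw [mem_diagIdeal, map_sub, Algebra.TensorProduct.lmul'_apply_tmul, mul_one, sub_self]⟩
  map_add' a b := Subtype.ext (by
    change (a + b) - (Algebra.TensorProduct.lmul' k (S := A) (a + b)) ⊗ₜ[k] (1 : A) =
      (a - (Algebra.TensorProduct.lmul' k (S := A) a) ⊗ₜ[k] (1 : A)) +
      (b - (Algebra.TensorProduct.lmul' k (S := A) b) ⊗ₜ[k] (1 : A))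
    rw [map_add, TensorProduct.add_tmul]; abel)
  map_smul' c a := Subtype.ext (by
    change (c • a) - (Algebra.TensorProduct.lmul' k (S := A) (c • a)) ⊗ₜ[k] (1 : A) =
      c • (a - (Algebra.TensorProduct.lmul' k (S := A) a) ⊗ₜ[k] (1 : A))
    rw [map_smul, smul_sub, TensorProduct.smul_tmul'])

lemma diagP_of_mem (i : diagIdeal k A) : diagP (k := k) (i : A ⊗[k] A) = i := by
  apply Subtype.ext
  change (i : A ⊗[k] A) - (Algebra.TensorProduct.lmul' k (S := A) (i : A ⊗[k] A)) ⊗ₜ[k] (1 : A) = i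
  rw [mem_diagIdeal.mp i.2, TensorProduct.zero_tmul, sub_zero]

lemma diagP_tmul (a' a : A) :
    diagP (k := k) (a' ⊗ₜ[k] a) = (a' ⊗ₜ[k] (1 : A)) • diagD (k := k) a := by
  apply Subtype.ext
  change a' ⊗ₜ[k] a - (Algebra.TensorProduct.lmul' k (S := A) (a' ⊗ₜ[k] a)) ⊗ₜ[k] (1 : A) =
    (a' ⊗ₜ[k] (1 : A)) * ((1 : A) ⊗ₜ[k] a - a ⊗ₜ[k] (1 : A))
  rw [Algebra.TensorProduct.lmul'_apply_tmul, mul_sub, Algebra.TensorProduct.tmul_mul_tmul,
    Algebra.TensorProduct.tmul_mul_tmul, mul_one, one_mul, mul_one]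

variable {R : Type u} [CommRing R] [Algebra k R]

/-- The `k`-point of `A` underlying an `R`-point of `R ⊗[k] A`. -/
def pointOf (y : R ⊗[k] A →ₐ[R] R) : A →ₐ[k] R :=
  (y.restrictScalars k).comp Algebra.TensorProduct.includeRight

lemma pointOf_apply (y : R ⊗[k] A →ₐ[R] R) (a : A) : pointOf y a = y (1 ⊗ₜ[k] a) := rfl

lemma point_tmul (y : R ⊗[k] A →ₐ[R] R) (r : R) (a : A) : y (r ⊗ₜ[k] a) = r * pointOf y a := by
  have : r ⊗ₜ[k] a = r • ((1 : R) ⊗ₜ[k] a) := by rw [TensorProduct.smul_tmul', smul_eq_mul, mul_one]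
  rw [this, map_smul, smul_eq_mul, pointOf_apply]

/-- The map `A ⊗ A → R ⊗ A` induced by the point. -/
def graphΦ (y : R ⊗[k] A →ₐ[R] R) : A ⊗[k] A →ₐ[k] R ⊗[k] A :=
  Algebra.TensorProduct.map (pointOf y) (AlgHom.id k A)

lemma graphΦ_tmul (y : R ⊗[k] A →ₐ[R] R) (a' a : A) :
    graphΦ y (a' ⊗ₜ[k] a) = pointOf y a' ⊗ₜ[k] a := by
  simp [graphΦ]

lemma point_graphΦ (y : R ⊗[k] A →ₐ[R] R) (i : A ⊗[k] A) :
    y (graphΦ y i) = pointOf y (Algebra.TensorProduct.lmul' k (S := A) i) := by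
  induction i using TensorProduct.induction_on with
  | zero => simp
  | tmul a' a =>
    rw [graphΦ_tmul, point_tmul, Algebra.TensorProduct.lmul'_apply_tmul, map_mul]
  | add a b ha hb => rw [map_add, map_add, ha, hb, map_add, map_add]

lemma graphΦ_mem (y : R ⊗[k] A →ₐ[R] R) (i : diagIdeal k A) :
    graphΦ y (i : A ⊗[k] A) ∈ RingHom.ker (y : R ⊗[k] A →+* R) := by
  rw [RingHom.mem_ker]
  change y (graphΦ y (i : A ⊗[k] A)) = 0
  rw [point_graphΦ, mem_diagIdeal.mp i.2, map_zero]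

variable (y : R ⊗[k] A →ₐ[R] R) (ψ : diagIdeal k A →ₗ[A ⊗[k] A] A ⊗[k] A)

/-- The `R`-linear endomorphism of `R ⊗ A` transporting the functional `ψ`. -/
noncomputable def graphΨ : R ⊗[k] A →ₗ[R] R ⊗[k] A :=
  LinearMap.liftBaseChange R
    ((graphΦ y).toLinearMap ∘ₗ (ψ.restrictScalars k) ∘ₗ (diagD (k := k) (A := A)))

lemma graphΨ_tmul (r : R) (a : A) :
    graphΨ y ψ (r ⊗ₜ[k] a) = r • graphΦ y (ψ (diagD (k := k) a)) := by
  simp [graphΨ]

/-- `Ψ ∘ Φ = Φ ∘ ψ ∘ P`. -/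
lemma graphΨ_graphΦ (i : A ⊗[k] A) :
    graphΨ y ψ (graphΦ y i) = graphΦ y (ψ (diagP (k := k) i)) := by
  induction i using TensorProduct.induction_on with
  | zero => simp
  | tmul a' a =>
    rw [graphΦ_tmul, graphΨ_tmul, diagP_tmul, map_smul, smul_eq_mul, map_mul, graphΦ_tmul,
      Algebra.smul_def]
    rfl
  | add a b ha hb => simp only [map_add, ha, hb]

/-- Failure of `(R ⊗ A)`-linearity of `Ψ` is measured by the point. -/
lemma graphΨ_mul (c : A) (t : R ⊗[k] A) :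
    graphΨ y ψ (((1 : R) ⊗ₜ[k] c) * t) = ((1 : R) ⊗ₜ[k] c) * graphΨ y ψ t +
      algebraMap R (R ⊗[k] A) (y t) * graphΦ y (ψ (diagD (k := k) c)) := by
  induction t using TensorProduct.induction_on with
  | zero => simp
  | tmul r a =>
    rw [Algebra.TensorProduct.tmul_mul_tmul, one_mul, graphΨ_tmul, graphΨ_tmul, point_tmul]
    have h1 : diagD (k := k) (c * a) = ((1 : A) ⊗ₜ[k] c) • diagD (k := k) a +
        (a ⊗ₜ[k] (1 : A)) • diagD (k := k) c := by
      apply Subtype.ext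
      change (1 : A) ⊗ₜ[k] (c * a) - (c * a) ⊗ₜ[k] (1 : A) =
        ((1 : A) ⊗ₜ[k] c) * ((1 : A) ⊗ₜ[k] a - a ⊗ₜ[k] (1 : A)) +
        (a ⊗ₜ[k] (1 : A)) * ((1 : A) ⊗ₜ[k] c - c ⊗ₜ[k] (1 : A))
      simp only [mul_sub, Algebra.TensorProduct.tmul_mul_tmul, mul_one, one_mul]
      rw [mul_comm a c]
      abel
    rw [h1, map_add, map_smul, map_smul, map_add, smul_eq_mul, smul_eq_mul, map_mul, map_mul,
      graphΦ_tmul, graphΦ_tmul, smul_add, map_one]
    simp only [Algebra.smul_def, Algebra.TensorProduct.algebraMap_apply, Algebra.algebraMap_self,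
      RingHom.id_apply, map_mul]
    ring
  | add a b ha hb =>
    rw [mul_add, map_add, ha, hb, map_add, map_add, map_add]
    ring

/-- The transported functional on the graph ideal. -/
noncomputable def graphFunctional :
    RingHom.ker (y : R ⊗[k] A →+* R) →ₗ[R ⊗[k] A] R ⊗[k] A where
  toFun t := graphΨ y ψ (t : R ⊗[k] A)
  map_add' s t := by
    change graphΨ y ψ ((s : R ⊗[k] A) + (t : R ⊗[k] A)) = _
    rw [map_add]
  map_smul' b t := by
    change graphΨ y ψ (b * (t : R ⊗[k] A)) = b * graphΨ y ψ (t : R ⊗[k] A)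
    have ht : y (t : R ⊗[k] A) = 0 := t.2
    induction b using TensorProduct.induction_on with
    | zero => simp
    | tmul r c =>
      have e : r ⊗ₜ[k] c = r • ((1 : R) ⊗ₜ[k] c) := by
        rw [TensorProduct.smul_tmul', smul_eq_mul, mul_one]
      rw [e, smul_mul_assoc, map_smul, graphΨ_mul, ht, map_zero, zero_mul, add_zero,
        smul_mul_assoc]
    | add a b ha hb => rw [add_mul, map_add, ha, hb, add_mul]

lemma graphFunctional_apply (i : diagIdeal k A) :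
    graphFunctional y ψ ⟨graphΦ y (i : A ⊗[k] A), graphΦ_mem y i⟩ = graphΦ y (ψ i) := by
  change graphΨ y ψ (graphΦ y (i : A ⊗[k] A)) = _
  rw [graphΨ_graphΦ, diagP_of_mem]

/-- **Graph ideals are invertible** (trace form): if the diagonal ideal of `A ⊗[k] A` has unit
trace ideal, so does the graph ideal of every `R`-point, for every `k`-algebra `R`. -/
theorem traceIdeal_graph_eq_top (h : traceIdeal (diagIdeal k A) = ⊤) (y : R ⊗[k] A →ₐ[R] R) :
    traceIdeal (RingHom.ker (y : R ⊗[k] A →+* R)) = ⊤ := by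
  have hall : ∀ b ∈ traceIdeal (diagIdeal k A),
      graphΦ y b ∈ traceIdeal (RingHom.ker (y : R ⊗[k] A →+* R)) := by
    intro b hb
    refine Submodule.span_induction (p := fun b _ =>
      graphΦ y b ∈ traceIdeal (RingHom.ker (y : R ⊗[k] A →+* R))) ?_ ?_ ?_ ?_ hb
    · rintro _ ⟨ψ, m, rfl⟩
      rw [← graphFunctional_apply y ψ m]
      exact apply_mem_traceIdeal _ _ _
    · simp
    · intro a b _ _ ha hb
      rw [map_add]; exact Ideal.add_mem _ ha hb
    · intro c a _ ha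
      rw [smul_eq_mul, map_mul]; exact Ideal.mul_mem_left _ _ ha
  rw [Ideal.eq_top_iff_one]
  have h1 : (1 : A ⊗[k] A) ∈ traceIdeal (diagIdeal k A) := by rw [h]; trivial
  simpa using hall 1 h1

/-- **Graph ideals are invertible modules**, given invertibility of the diagonal ideal. -/
theorem invertible_graph [Module.Invertible (A ⊗[k] A) (diagIdeal k A)]
    (y : R ⊗[k] A →ₐ[R] R) :
    Module.Invertible (R ⊗[k] A) (RingHom.ker (y : R ⊗[k] A →+* R)) :=
  invertible_of_traceIdeal_eq_top _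
    (traceIdeal_graph_eq_top (traceIdeal_eq_top_of_invertible _) y)

end Graph

end Fermat.Agent.S25.TWIST.G1.H3108
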