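/-
S25 (Jacobian), package TWIST (point families; old A9), helper3108.  Mathlib-only.

Trace-ideal criterion for invertibility of ideals:
an ideal `I` of a commutative ring `B` is an invertible `B`-module iff its trace ideal
(generated by all `ψ m`, `ψ : I →ₗ[B] B`, `m ∈ I`) is the unit ideal.
No finiteness, no non-zero-divisor, no localisation is needed.
-/
import Mathlib

set_option autoImplicit false

universe u

namespace Fermat.Agent.S25.TWIST.G1.H3108

open scoped TensorProduct

variable {B : Type u} [CommRing B]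

/-- For a linear functional on an ideal, `ψ m * n = ψ n * m`. -/
lemma functional_mul_comm (I : Ideal B) (ψ : I →ₗ[B] B) (m n : I) :
    ψ m * (n : B) = ψ n * (m : B) := by
  have h1 : ψ ((n : B) • m) = (n : B) * ψ m := by rw [map_smul, smul_eq_mul]
  have h2 : ψ ((m : B) • n) = (m : B) * ψ n := by rw [map_smul, smul_eq_mul]
  have h3 : (n : B) • m = (m : B) • n := Subtype.ext (by simp [mul_comm])
  rw [h3] at h1
  rw [mul_comm, ← h1, h2, mul_comm]

/-- Module form of `functional_mul_comm`. -/
lemma functional_smul_comm (I : Ideal B) (ψ : I →ₗ[B] B) (m n : I) :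
    ψ m • n = ψ n • m :=
  Subtype.ext (by simpa using functional_mul_comm I ψ m n)

/-- The trace ideal of an ideal `I`: generated by the values of all linear functionals on `I`. -/
def traceIdeal (I : Ideal B) : Ideal B :=
  Ideal.span {b | ∃ (ψ : I →ₗ[B] B) (m : I), ψ m = b}

lemma apply_mem_traceIdeal (I : Ideal B) (ψ : I →ₗ[B] B) (m : I) : ψ m ∈ traceIdeal I :=
  Ideal.subset_span ⟨ψ, m, rfl⟩

lemma le_traceIdeal (I : Ideal B) : I ≤ traceIdeal I := fun a ha =>
  apply_mem_traceIdeal I (Submodule.subtype I) ⟨a, ha⟩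

/-- A finite "dual basis" extracted from `traceIdeal I = ⊤`. -/
lemma exists_trace_family (I : Ideal B) (h : traceIdeal I = ⊤) :
    ∃ (n : ℕ) (ψ : Fin n → (I →ₗ[B] B)) (m : Fin n → I), ∑ i, ψ i (m i) = 1 := by
  have h1 : (1 : B) ∈ traceIdeal I := by rw [h]; trivial
  obtain ⟨n, c, g, hg⟩ := Submodule.mem_span_set'.mp h1
  choose ψ m hψ using fun i => (g i).2
  refine ⟨n, fun i => c i • ψ i, m, ?_⟩
  rw [← hg]
  refine Finset.sum_congr rfl fun i _ => ?_
  rw [LinearMap.smul_apply, hψ]

/-- **Trace criterion.** An ideal whose trace ideal is the unit ideal is an invertible module. -/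
theorem invertible_of_traceIdeal_eq_top (I : Ideal B) (h : traceIdeal I = ⊤) :
    Module.Invertible B I := by
  obtain ⟨n, ψ, m, hsum⟩ := exists_trace_family I h
  let t : Module.Dual B I ⊗[B] I := ∑ i, (ψ i) ⊗ₜ[B] (m i)
  have ht : contractLeft B I t = 1 := by
    simp only [t, map_sum, contractLeft_apply]
    exact hsum
  have key : ∀ z : Module.Dual B I ⊗[B] I, contractLeft B I z • t = z := by
    intro z
    induction z using TensorProduct.induction_on with
    | zero => simp
    | add x y hx hy => rw [map_add, add_smul, hx, hy]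
    | tmul φ a =>
      rw [contractLeft_apply]
      have e1 : φ a • t = ∑ i, (φ (m i) • ψ i) ⊗ₜ[B] a := by
        simp only [t, Finset.smul_sum]
        refine Finset.sum_congr rfl fun i _ => ?_
        rw [TensorProduct.smul_tmul', TensorProduct.smul_tmul, functional_smul_comm I φ a (m i),
          ← TensorProduct.smul_tmul]
      have e2 : ∑ i, φ (m i) • ψ i = φ := by
        apply LinearMap.ext
        intro b
        simp only [LinearMap.sum_apply, LinearMap.smul_apply, smul_eq_mul]
        have e3 : ∀ i, φ (m i) * ψ i b = φ (ψ i (m i) • b) := by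
          intro i
          rw [← functional_smul_comm I (ψ i) b (m i), map_smul, smul_eq_mul, mul_comm]
        simp only [e3]
        rw [← map_sum, ← Finset.sum_smul, hsum, one_smul]
      rw [e1, ← TensorProduct.sum_tmul, e2]
  refine ⟨fun z z' hz => ?_, fun b => ⟨b • t, by rw [map_smul, ht, smul_eq_mul, mul_one]⟩⟩
  rw [← key z, ← key z', hz]

/-- Conversely, an invertible ideal has unit trace ideal. -/
theorem traceIdeal_eq_top_of_invertible (I : Ideal B) [Module.Invertible B I] :
    traceIdeal I = ⊤ := by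
  have hall : ∀ z : Module.Dual B I ⊗[B] I, contractLeft B I z ∈ traceIdeal I := by
    intro z
    induction z using TensorProduct.induction_on with
    | zero => simp
    | add x y hx hy => rw [map_add]; exact Ideal.add_mem _ hx hy
    | tmul φ a => rw [contractLeft_apply]; exact apply_mem_traceIdeal I φ a
  obtain ⟨z, hz⟩ := (Module.Invertible.bijective (R := B) (M := I)).2 1
  rw [Ideal.eq_top_iff_one, ← hz]
  exact hall z

theorem invertible_iff_traceIdeal_eq_top (I : Ideal B) :
    Module.Invertible B I ↔ traceIdeal I = ⊤ :=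
  ⟨fun _ => traceIdeal_eq_top_of_invertible I, invertible_of_traceIdeal_eq_top I⟩

/-- A functional on `J` maps `I * J` into `I`. -/
lemma functional_mem_of_mem_mul (I J : Ideal B) (χ : J →ₗ[B] B) :
    ∀ x (hx : x ∈ I * J), χ ⟨x, Ideal.mul_le_right hx⟩ ∈ I := by
  intro x hx
  refine Submodule.mul_induction_on'
    (C := fun x hx => χ ⟨x, Ideal.mul_le_right hx⟩ ∈ I) ?_ ?_ hx
  · intro a ha b hb
    have : (⟨a * b, Ideal.mul_le_right (Ideal.mul_mem_mul ha hb)⟩ : J) = a • (⟨b, hb⟩ : J) :=
      Subtype.ext (by simp)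
    change χ ⟨a * b, _⟩ ∈ I
    rw [this, map_smul, smul_eq_mul]
    exact Ideal.mul_mem_right _ _ ha
  · intro x hx y hy hx' hy'
    have : (⟨x + y, Ideal.mul_le_right (add_mem hx hy)⟩ : J)
        = ⟨x, Ideal.mul_le_right hx⟩ + ⟨y, Ideal.mul_le_right hy⟩ := rfl
    change χ ⟨x + y, _⟩ ∈ I
    rw [this, map_add]
    exact Ideal.add_mem _ hx' hy'

/-- The functional `I * J → I` induced by a functional `χ` on `J`. -/
def functionalMulLeft (I J : Ideal B) (χ : J →ₗ[B] B) : ↥(I * J) →ₗ[B] I where
  toFun x := ⟨χ ⟨x.1, Ideal.mul_le_right x.2⟩, functional_mem_of_mem_mul I J χ x.1 x.2⟩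
  map_add' x y := Subtype.ext (by
    change χ ⟨(x + y : ↥(I * J)).1, _⟩ = χ ⟨x.1, _⟩ + χ ⟨y.1, _⟩
    rw [← map_add]; rfl)
  map_smul' c x := Subtype.ext (by
    change χ ⟨(c • x : ↥(I * J)).1, _⟩ = c • χ ⟨x.1, _⟩
    rw [← map_smul]; rfl)

lemma functionalMulLeft_mul (I J : Ideal B) (χ : J →ₗ[B] B) (a : I) (b : J) :
    functionalMulLeft I J χ ⟨(a : B) * (b : B), Ideal.mul_mem_mul a.2 b.2⟩ = χ b • a := by
  apply Subtype.ext
  have : (⟨(a : B) * (b : B), Ideal.mul_le_right (Ideal.mul_mem_mul a.2 b.2)⟩ : J)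
      = (a : B) • b := Subtype.ext (by simp)
  change χ ⟨(a : B) * (b : B), _⟩ = _
  rw [this, map_smul, smul_eq_mul]
  simp [mul_comm]

/-- The trace ideal is supermultiplicative. -/
theorem traceIdeal_mul_le (I J : Ideal B) : traceIdeal I * traceIdeal J ≤ traceIdeal (I * J) := by
  rw [Ideal.mul_le]
  intro s hs t ht
  -- first fix `t`, induct on `s`
  refine Submodule.span_induction (p := fun s _ => s * t ∈ traceIdeal (I * J)) ?_ ?_ ?_ ?_ hs
  · rintro _ ⟨ψ, a, rfl⟩
    refine Submodule.span_induction (p := fun t _ => ψ a * t ∈ traceIdeal (I * J)) ?_ ?_ ?_ ?_ ht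
    · rintro _ ⟨χ, b, rfl⟩
      have e : ψ a * χ b = (ψ.comp (functionalMulLeft I J χ))
          ⟨(a : B) * (b : B), Ideal.mul_mem_mul a.2 b.2⟩ := by
        rw [LinearMap.comp_apply, functionalMulLeft_mul, map_smul, smul_eq_mul, mul_comm]
      rw [e]
      exact apply_mem_traceIdeal _ _ _
    · simp
    · intro x y _ _ hx hy
      rw [mul_add]; exact Ideal.add_mem _ hx hy
    · intro c x _ hx
      rw [smul_eq_mul, mul_left_comm]; exact Ideal.mul_mem_left _ _ hx
  · simp
  · intro x y _ _ hx hy
    rw [add_mul]; exact Ideal.add_mem _ hx hy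
  · intro c x _ hx
    rw [smul_eq_mul, mul_assoc]; exact Ideal.mul_mem_left _ _ hx

/-- Products of invertible ideals are invertible (trace form). -/
theorem traceIdeal_mul_eq_top (I J : Ideal B) (hI : traceIdeal I = ⊤) (hJ : traceIdeal J = ⊤) :
    traceIdeal (I * J) = ⊤ := by
  have := traceIdeal_mul_le I J
  rw [hI, hJ, Ideal.top_mul] at this
  exact top_le_iff.mp this

lemma traceIdeal_top : traceIdeal (⊤ : Ideal B) = ⊤ :=
  top_le_iff.mp (le_traceIdeal ⊤)

/-- Powers of invertible ideals are invertible (trace form). -/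
theorem traceIdeal_pow_eq_top (I : Ideal B) (hI : traceIdeal I = ⊤) (n : ℕ) :
    traceIdeal (I ^ n) = ⊤ := by
  induction n with
  | zero => rw [pow_zero, Ideal.one_eq_top]; exact traceIdeal_top
  | succ n ih => rw [pow_succ]; exact traceIdeal_mul_eq_top _ _ ih hI

end Fermat.Agent.S25.TWIST.G1.H3108
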