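/-
S25 (Jacobian), package TWIST (point families; old A9), helper3108.
Core-only (Core.lean of helper5425 + Trace.lean).

Ideal data on a two-chart, the ideal datum of a point of either chart, agreement of the two
descriptions of a point of the overlap, and the transfer of invertibility to the other chart
(the "(Closed)" step: an ideal `I₁ ⊆ B₁`, invertible, whose closure ideal
`I₂ = r₂⁻¹(I₁ B₁₂)` contains an element `u ≡ 1 mod g`, has invertible `I₂`).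
-/
import Fermat.Agent.S25.Core
import Fermat.Agent.S25.TWIST.G1.H3108.Trace

set_option autoImplicit false

universe u

namespace Fermat.Agent.S25.TWIST.G1.H3108

open Fermat.Agent.S25

variable {R : Type u} [CommRing R]

/-! ## Localisation facts for a two-chart -/

section TwoChartLemmas

variable (𝔹 : TwoChart R)

lemma rf_pow_mul_rg_pow (n : ℕ) : 𝔹.r₁ 𝔹.f ^ n * 𝔹.r₂ 𝔹.g ^ n = 1 := by
  rw [← mul_pow, 𝔹.fg, one_pow]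

lemma rg_pow_mul_rf_pow (n : ℕ) : 𝔹.r₂ 𝔹.g ^ n * 𝔹.r₁ 𝔹.f ^ n = 1 := by
  rw [mul_comm, rf_pow_mul_rg_pow]

/-- The two-chart with the roles of the charts exchanged. -/
def swapChart : TwoChart R where
  B₁ := 𝔹.B₂
  B₂ := 𝔹.B₁
  B₁₂ := 𝔹.B₁₂
  r₁ := 𝔹.r₂
  r₂ := 𝔹.r₁
  f := 𝔹.g
  g := 𝔹.f
  fg := by rw [mul_comm]; exact 𝔹.fg
  surj₁ := 𝔹.surj₂
  surj₂ := 𝔹.surj₁
  ker₁ := 𝔹.ker₂
  ker₂ := 𝔹.ker₁

/-- Elements of the extension `I·B₁₂` of an ideal of `B₁`. -/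
lemma mem_map_r₁ (I : Ideal 𝔹.B₁) (y : 𝔹.B₁₂) :
    y ∈ I.map 𝔹.r₁ ↔ ∃ a ∈ I, ∃ n : ℕ, y = 𝔹.r₁ a * 𝔹.r₂ 𝔹.g ^ n := by
  constructor
  · intro hy
    refine Submodule.span_induction (p := fun y _ => ∃ a ∈ I, ∃ n : ℕ, y = 𝔹.r₁ a * 𝔹.r₂ 𝔹.g ^ n)
      ?_ ?_ ?_ ?_ hy
    · rintro _ ⟨a, ha, rfl⟩
      exact ⟨a, ha, 0, by simp⟩
    · exact ⟨0, I.zero_mem, 0, by simp⟩
    · rintro y y' _ _ ⟨a, ha, n, rfl⟩ ⟨a', ha', n', rfl⟩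
      refine ⟨𝔹.f ^ n' * a + 𝔹.f ^ n * a', I.add_mem (I.mul_mem_left _ ha) (I.mul_mem_left _ ha'),
        n + n', ?_⟩
      have h1 := rf_pow_mul_rg_pow 𝔹 n
      have h2 := rf_pow_mul_rg_pow 𝔹 n'
      simp only [map_add, map_mul, map_pow, pow_add]
      linear_combination (-(𝔹.r₁ a * 𝔹.r₂ 𝔹.g ^ n)) * h2 - (𝔹.r₁ a' * 𝔹.r₂ 𝔹.g ^ n') * h1
    · rintro c y _ ⟨a, ha, n, rfl⟩
      obtain ⟨e, m, rfl⟩ := 𝔹.surj₁ c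
      refine ⟨e * a, I.mul_mem_left _ ha, m + n, ?_⟩
      simp only [smul_eq_mul, map_mul, pow_add]
      ring
  · rintro ⟨a, ha, n, rfl⟩
    exact Ideal.mul_mem_right _ _ (Ideal.mem_map_of_mem _ ha)

/-- Elements of the extension `I·B₁₂` of an ideal of `B₂`. -/
lemma mem_map_r₂ (I : Ideal 𝔹.B₂) (y : 𝔹.B₁₂) :
    y ∈ I.map 𝔹.r₂ ↔ ∃ a ∈ I, ∃ n : ℕ, y = 𝔹.r₂ a * 𝔹.r₁ 𝔹.f ^ n :=
  mem_map_r₁ (swapChart 𝔹) I y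

/-- Every ideal of `B₁₂` is extended from `B₂`. -/
lemma map_comap_r₂ (J : Ideal 𝔹.B₁₂) : (J.comap 𝔹.r₂).map 𝔹.r₂ = J := by
  apply le_antisymm Ideal.map_comap_le
  intro y hy
  obtain ⟨a, n, rfl⟩ := 𝔹.surj₂ y
  refine Ideal.mul_mem_right _ _ (Ideal.mem_map_of_mem _ ?_)
  rw [Ideal.mem_comap]
  have : 𝔹.r₂ a = 𝔹.r₂ a * 𝔹.r₁ 𝔹.f ^ n * 𝔹.r₂ 𝔹.g ^ n := by
    rw [mul_assoc, rf_pow_mul_rg_pow, mul_one]
  rw [this]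
  exact Ideal.mul_mem_right _ _ hy

/-- Every ideal of `B₁₂` is extended from `B₁`. -/
lemma map_comap_r₁ (J : Ideal 𝔹.B₁₂) : (J.comap 𝔹.r₁).map 𝔹.r₁ = J :=
  map_comap_r₂ (swapChart 𝔹) J

end TwoChartLemmas

/-! ## Ideal data -/

/-- An ideal datum on a two-chart: ideals of the two charts with the same extension to the
overlap.  (A quasi-coherent ideal sheaf.) -/
structure IdealDatum (𝔹 : TwoChart R) where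
  I₁ : Ideal 𝔹.B₁
  I₂ : Ideal 𝔹.B₂
  I₁₂ : Ideal 𝔹.B₁₂
  map₁ : I₁.map 𝔹.r₁ = I₁₂
  map₂ : I₂.map 𝔹.r₂ = I₁₂

namespace IdealDatum

variable {𝔹 : TwoChart R}

theorem ext' {D D' : IdealDatum 𝔹} (h₁ : D.I₁ = D'.I₁) (h₂ : D.I₂ = D'.I₂) : D = D' := by
  cases D with
  | mk I₁ I₂ I₁₂ m₁ m₂ =>
    cases D' with
    | mk I₁' I₂' I₁₂' m₁' m₂' =>
      simp only at h₁ h₂
      subst h₁ h₂
      have : I₁₂ = I₁₂' := m₁.symm.trans m₁'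
      subst this
      rfl

instance : One (IdealDatum 𝔹) :=
  ⟨⟨⊤, ⊤, ⊤, Ideal.map_top _, Ideal.map_top _⟩⟩

instance : Mul (IdealDatum 𝔹) :=
  ⟨fun D D' => ⟨D.I₁ * D'.I₁, D.I₂ * D'.I₂, D.I₁₂ * D'.I₁₂,
    by rw [Ideal.map_mul, D.map₁, D'.map₁], by rw [Ideal.map_mul, D.map₂, D'.map₂]⟩⟩

@[simp] lemma one_I₁ : (1 : IdealDatum 𝔹).I₁ = ⊤ := rfl
@[simp] lemma one_I₂ : (1 : IdealDatum 𝔹).I₂ = ⊤ := rfl
@[simp] lemma one_I₁₂ : (1 : IdealDatum 𝔹).I₁₂ = ⊤ := rfl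
@[simp] lemma mul_I₁ (D D' : IdealDatum 𝔹) : (D * D').I₁ = D.I₁ * D'.I₁ := rfl
@[simp] lemma mul_I₂ (D D' : IdealDatum 𝔹) : (D * D').I₂ = D.I₂ * D'.I₂ := rfl
@[simp] lemma mul_I₁₂ (D D' : IdealDatum 𝔹) : (D * D').I₁₂ = D.I₁₂ * D'.I₁₂ := rfl

instance : CommMonoid (IdealDatum 𝔹) where
  mul_assoc a b c := ext' (mul_assoc _ _ _) (mul_assoc _ _ _)
  one_mul a := ext' (by simp [Ideal.top_mul]) (by simp [Ideal.top_mul])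
  mul_one a := ext' (by simp [Ideal.mul_top]) (by simp [Ideal.mul_top])
  mul_comm a b := ext' (mul_comm _ _) (mul_comm _ _)

@[simp] lemma pow_I₁ (D : IdealDatum 𝔹) (n : ℕ) : (D ^ n).I₁ = D.I₁ ^ n := by
  induction n with
  | zero => simp [Ideal.one_eq_top]
  | succ n ih => rw [pow_succ, pow_succ, mul_I₁, ih]

@[simp] lemma pow_I₂ (D : IdealDatum 𝔹) (n : ℕ) : (D ^ n).I₂ = D.I₂ ^ n := by
  induction n with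
  | zero => simp [Ideal.one_eq_top]
  | succ n ih => rw [pow_succ, pow_succ, mul_I₂, ih]

lemma prod_I₁ (l : List (IdealDatum 𝔹)) : l.prod.I₁ = (l.map IdealDatum.I₁).prod := by
  induction l with
  | nil => simp [Ideal.one_eq_top]
  | cons a l ih => simp [ih]

lemma prod_I₂ (l : List (IdealDatum 𝔹)) : l.prod.I₂ = (l.map IdealDatum.I₂).prod := by
  induction l with
  | nil => simp [Ideal.one_eq_top]
  | cons a l ih => simp [ih]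

/-- The first restriction map of the glued module of an ideal datum. -/
def ι₁ (D : IdealDatum 𝔹) : D.I₁ →ₗ[R] D.I₁₂ where
  toFun a := ⟨𝔹.r₁ a, D.map₁ ▸ Ideal.mem_map_of_mem _ a.2⟩
  map_add' a b := Subtype.ext (map_add _ _ _)
  map_smul' c a := Subtype.ext (by
    change 𝔹.r₁ (c • (a : 𝔹.B₁)) = c • 𝔹.r₁ (a : 𝔹.B₁)
    rw [map_smul])

/-- The second restriction map of the glued module of an ideal datum. -/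
def ι₂ (D : IdealDatum 𝔹) : D.I₂ →ₗ[R] D.I₁₂ where
  toFun a := ⟨𝔹.r₂ a, D.map₂ ▸ Ideal.mem_map_of_mem _ a.2⟩
  map_add' a b := Subtype.ext (map_add _ _ _)
  map_smul' c a := Subtype.ext (by
    change 𝔹.r₂ (c • (a : 𝔹.B₂)) = c • 𝔹.r₂ (a : 𝔹.B₂)
    rw [map_smul])

@[simp] lemma ι₁_coe (D : IdealDatum 𝔹) (a : D.I₁) : ((D.ι₁ a : D.I₁₂) : 𝔹.B₁₂) = 𝔹.r₁ a := rfl
@[simp] lemma ι₂_coe (D : IdealDatum 𝔹) (a : D.I₂) : ((D.ι₂ a : D.I₁₂) : 𝔹.B₁₂) = 𝔹.r₂ a := rfl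

/-- The glued module (quasi-coherent ideal sheaf) of an ideal datum. -/
def toGlued (D : IdealDatum 𝔹) : GluedModule 𝔹 where
  N₁ := D.I₁
  N₂ := D.I₂
  N₁₂ := D.I₁₂
  ι₁ := D.ι₁
  ι₂ := D.ι₂
  ι₁_smul b n := Subtype.ext (by simp)
  ι₂_smul b n := Subtype.ext (by simp)
  surj₁ y := by
    obtain ⟨a, ha, n, hy⟩ := (mem_map_r₁ 𝔹 D.I₁ y.1).mp (by rw [D.map₁]; exact y.2)
    refine ⟨⟨a, ha⟩, n, Subtype.ext ?_⟩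
    simp [hy, mul_comm]
  ker₁ n hn := by
    obtain ⟨m, hm⟩ := 𝔹.ker₁ n.1 (congrArg Subtype.val hn)
    exact ⟨m, Subtype.ext (by simpa using hm)⟩
  surj₂ y := by
    obtain ⟨a, ha, n, hy⟩ := (mem_map_r₂ 𝔹 D.I₂ y.1).mp (by rw [D.map₂]; exact y.2)
    refine ⟨⟨a, ha⟩, n, Subtype.ext ?_⟩
    simp [hy, mul_comm]
  ker₂ n hn := by
    obtain ⟨m, hm⟩ := 𝔹.ker₂ n.1 (congrArg Subtype.val hn)
    exact ⟨m, Subtype.ext (by simpa using hm)⟩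

end IdealDatum

/-! ## Closure of an ideal of one chart, and transfer of invertibility -/

section Closure

variable (𝔹 : TwoChart R)

/-- The ideal of `B₂` cut out by an ideal `I` of `B₁` on the overlap: `r₂⁻¹(I·B₁₂)`. -/
def closure₂ (I : Ideal 𝔹.B₁) : Ideal 𝔹.B₂ := (I.map 𝔹.r₁).comap 𝔹.r₂

/-- The ideal of `B₁` cut out by an ideal `I` of `B₂` on the overlap: `r₁⁻¹(I·B₁₂)`. -/
def closure₁ (I : Ideal 𝔹.B₂) : Ideal 𝔹.B₁ := (I.map 𝔹.r₂).comap 𝔹.r₁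

lemma mem_closure₂ (I : Ideal 𝔹.B₁) (b : 𝔹.B₂) :
    b ∈ closure₂ 𝔹 I ↔ ∃ a ∈ I, ∃ n : ℕ, 𝔹.r₂ b = 𝔹.r₁ a * 𝔹.r₂ 𝔹.g ^ n := by
  rw [closure₂, Ideal.mem_comap, mem_map_r₁]

lemma mem_closure₁ (I : Ideal 𝔹.B₂) (b : 𝔹.B₁) :
    b ∈ closure₁ 𝔹 I ↔ ∃ a ∈ I, ∃ n : ℕ, 𝔹.r₁ b = 𝔹.r₂ a * 𝔹.r₁ 𝔹.f ^ n :=
  mem_closure₂ (swapChart 𝔹) I b

/-- The ideal datum defined by an ideal of the first chart. -/
def ofIdeal₁ (I : Ideal 𝔹.B₁) : IdealDatum 𝔹 where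
  I₁ := I
  I₂ := closure₂ 𝔹 I
  I₁₂ := I.map 𝔹.r₁
  map₁ := rfl
  map₂ := map_comap_r₂ 𝔹 _

/-- The ideal datum defined by an ideal of the second chart. -/
def ofIdeal₂ (I : Ideal 𝔹.B₂) : IdealDatum 𝔹 where
  I₁ := closure₁ 𝔹 I
  I₂ := I
  I₁₂ := I.map 𝔹.r₂
  map₁ := map_comap_r₁ 𝔹 _
  map₂ := rfl

/-- If `s * g + u = 1` then `s^K * g^K + u * q = 1` for some `q`. -/
lemma exists_pow_expansion {B : Type u} [CommRing B] (s g u : B) (h : s * g + u = 1) (K : ℕ) :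
    ∃ q : B, s ^ K * g ^ K + u * q = 1 := by
  induction K with
  | zero => exact ⟨0, by simp⟩
  | succ K ih =>
    obtain ⟨q, hq⟩ := ih
    refine ⟨s ^ K * g ^ K + q, ?_⟩
    linear_combination (s ^ K * g ^ K) * h + hq

/-- An element killed by `u` and by a power of `g` is zero when `(g, u) = 1`. -/
lemma eq_zero_of_mul_eq_zero {B : Type u} [CommRing B] (s g u : B) (h : s * g + u = 1)
    (d : B) (m : ℕ) (hg : g ^ m * d = 0) (hu : u * d = 0) : d = 0 := by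
  obtain ⟨q, hq⟩ := exists_pow_expansion s g u h m
  have : d = s ^ m * (g ^ m * d) + q * (u * d) := by linear_combination (-d) * hq
  rw [this, hg, hu, mul_zero, mul_zero, add_zero]

/-- Localised functionals are well defined. -/
lemma functional_wd (I : Ideal 𝔹.B₁) (φ : I →ₗ[𝔹.B₁] 𝔹.B₁) (a a' : I) (n n' : ℕ)
    (h : 𝔹.r₁ a * 𝔹.r₂ 𝔹.g ^ n = 𝔹.r₁ a' * 𝔹.r₂ 𝔹.g ^ n') :
    𝔹.r₁ (φ a) * 𝔹.r₂ 𝔹.g ^ n = 𝔹.r₁ (φ a') * 𝔹.r₂ 𝔹.g ^ n' := by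
  have h1 := rf_pow_mul_rg_pow 𝔹 n
  have h2 := rf_pow_mul_rg_pow 𝔹 n'
  have h3 : 𝔹.r₁ (𝔹.f ^ n' * (a : 𝔹.B₁) - 𝔹.f ^ n * (a' : 𝔹.B₁)) = 0 := by
    simp only [map_sub, map_mul, map_pow]
    linear_combination (𝔹.r₁ 𝔹.f ^ n * 𝔹.r₁ 𝔹.f ^ n') * h - (𝔹.r₁ 𝔹.f ^ n' * 𝔹.r₁ a) * h1
      + (𝔹.r₁ 𝔹.f ^ n * 𝔹.r₁ a') * h2
  obtain ⟨m, hm⟩ := 𝔹.ker₁ _ h3
  have h4 : 𝔹.f ^ m • (𝔹.f ^ n' • a - 𝔹.f ^ n • a') = (0 : I) := Subtype.ext (by simpa using hm)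
  have h5 := congrArg φ h4
  simp only [map_smul, map_sub, smul_eq_mul, map_zero] at h5
  have h6 := congrArg 𝔹.r₁ h5
  simp only [map_mul, map_sub, map_pow, map_zero] at h6
  have h7 := rf_pow_mul_rg_pow 𝔹 m
  linear_combination (𝔹.r₂ 𝔹.g ^ m * 𝔹.r₂ 𝔹.g ^ n * 𝔹.r₂ 𝔹.g ^ n') * h6
    + (-(𝔹.r₁ (φ a) * 𝔹.r₂ 𝔹.g ^ n) * (𝔹.r₁ 𝔹.f ^ n' * 𝔹.r₂ 𝔹.g ^ n')
        + (𝔹.r₁ (φ a') * 𝔹.r₂ 𝔹.g ^ n') * (𝔹.r₁ 𝔹.f ^ n * 𝔹.r₂ 𝔹.g ^ n)) * h7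
    + (-(𝔹.r₁ (φ a) * 𝔹.r₂ 𝔹.g ^ n)) * h2 + (𝔹.r₁ (φ a') * 𝔹.r₂ 𝔹.g ^ n') * h1

end Closure

/-! ## Transfer of functionals to the closure ideal -/

section Transfer

variable (𝔹 : TwoChart R) (I : Ideal 𝔹.B₁) (u s : 𝔹.B₂)

/-- The graph of the transferred functional `g^N φ` on the closure ideal. -/
def TransRel (φ : I →ₗ[𝔹.B₁] 𝔹.B₁) (c' : 𝔹.B₂) (N : ℕ) (b w : 𝔹.B₂) : Prop :=
  u * w = b * c' ∧ ∃ (a : I) (n : ℕ), 𝔹.r₂ b = 𝔹.r₁ a * 𝔹.r₂ 𝔹.g ^ n ∧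
    𝔹.r₂ w = 𝔹.r₂ 𝔹.g ^ (N + n) * 𝔹.r₁ (φ a)

variable {𝔹 I u s}

lemma TransRel.apply_eq {φ : I →ₗ[𝔹.B₁] 𝔹.B₁} {c' : 𝔹.B₂} {N : ℕ} {b w : 𝔹.B₂}
    (h : TransRel 𝔹 I u φ c' N b w) (a : I) (n : ℕ) (hb : 𝔹.r₂ b = 𝔹.r₁ a * 𝔹.r₂ 𝔹.g ^ n) :
    𝔹.r₂ w = 𝔹.r₂ 𝔹.g ^ (N + n) * 𝔹.r₁ (φ a) := by
  obtain ⟨-, a', n', hb', hw'⟩ := h
  have hwd := functional_wd 𝔹 I φ a' a n' n (hb'.symm.trans hb)
  rw [hw', pow_add, pow_add]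
  linear_combination (𝔹.r₂ 𝔹.g ^ N) * hwd

lemma TransRel.unique (hs : s * 𝔹.g + u = 1) {φ : I →ₗ[𝔹.B₁] 𝔹.B₁} {c' : 𝔹.B₂} {N : ℕ}
    {b w w' : 𝔹.B₂} (h : TransRel 𝔹 I u φ c' N b w) (h' : TransRel 𝔹 I u φ c' N b w') :
    w = w' := by
  obtain ⟨h1, a, n, hb, hw⟩ := h
  have hw' := h'.apply_eq a n hb
  have h2 : 𝔹.r₂ (w - w') = 0 := by rw [map_sub, hw, hw', sub_self]
  obtain ⟨m, hm⟩ := 𝔹.ker₂ _ h2
  have h3 : u * (w - w') = 0 := by rw [mul_sub, h1, h'.1, sub_self]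
  exact sub_eq_zero.mp (eq_zero_of_mul_eq_zero s 𝔹.g u hs _ m hm h3)

lemma TransRel.add {φ : I →ₗ[𝔹.B₁] 𝔹.B₁} {c' : 𝔹.B₂} {N : ℕ} {b w b' w' : 𝔹.B₂}
    (h : TransRel 𝔹 I u φ c' N b w) (h' : TransRel 𝔹 I u φ c' N b' w') :
    TransRel 𝔹 I u φ c' N (b + b') (w + w') := by
  obtain ⟨h1, a, n, hb, hw⟩ := h
  obtain ⟨h1', a', n', hb', hw'⟩ := h'
  refine ⟨by rw [mul_add, add_mul, h1, h1'], 𝔹.f ^ n' • a + 𝔹.f ^ n • a', n + n', ?_, ?_⟩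
  · have e1 := rf_pow_mul_rg_pow 𝔹 n
    have e2 := rf_pow_mul_rg_pow 𝔹 n'
    have : ((𝔹.f ^ n' • a + 𝔹.f ^ n • a' : I) : 𝔹.B₁) = 𝔹.f ^ n' * (a : 𝔹.B₁) + 𝔹.f ^ n * (a' : 𝔹.B₁) :=
      rfl
    rw [this, map_add, hb, hb']
    simp only [map_add, map_mul, map_pow, pow_add]
    linear_combination (-(𝔹.r₁ a * 𝔹.r₂ 𝔹.g ^ n)) * e2 - (𝔹.r₁ a' * 𝔹.r₂ 𝔹.g ^ n') * e1
  · have e1 := rf_pow_mul_rg_pow 𝔹 n
    have e2 := rf_pow_mul_rg_pow 𝔹 n'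
    rw [map_add, hw, hw']
    simp only [map_add, map_smul, smul_eq_mul, map_mul, map_pow, pow_add]
    linear_combination (-(𝔹.r₂ 𝔹.g ^ N * 𝔹.r₂ 𝔹.g ^ n * 𝔹.r₁ (φ a))) * e2
      - (𝔹.r₂ 𝔹.g ^ N * 𝔹.r₂ 𝔹.g ^ n' * 𝔹.r₁ (φ a')) * e1

lemma TransRel.smul {φ : I →ₗ[𝔹.B₁] 𝔹.B₁} {c' : 𝔹.B₂} {N : ℕ} {b w : 𝔹.B₂} (β : 𝔹.B₂)
    (h : TransRel 𝔹 I u φ c' N b w) : TransRel 𝔹 I u φ c' N (β * b) (β * w) := by
  obtain ⟨h1, a, n, hb, hw⟩ := h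
  obtain ⟨e, k, he⟩ := 𝔹.surj₁ (𝔹.r₂ β)
  refine ⟨by linear_combination β * h1, e • a, k + n, ?_, ?_⟩
  · have : ((e • a : I) : 𝔹.B₁) = e * (a : 𝔹.B₁) := rfl
    rw [this, map_mul, map_mul, hb, he, pow_add]
    ring
  · rw [map_mul, hw, he, map_smul, smul_eq_mul, map_mul, pow_add, pow_add, pow_add]
    ring

lemma TransRel.exists (hs : s * 𝔹.g + u = 1) {φ : I →ₗ[𝔹.B₁] 𝔹.B₁} {c' : 𝔹.B₂} {N : ℕ}
    (au : I) (nu : ℕ) (hu : 𝔹.r₂ u = 𝔹.r₁ au * 𝔹.r₂ 𝔹.g ^ nu)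
    (hc' : 𝔹.r₂ c' = 𝔹.r₂ 𝔹.g ^ (N + nu) * 𝔹.r₁ (φ au))
    (b : 𝔹.B₂) (hb : b ∈ closure₂ 𝔹 I) : ∃ w, TransRel 𝔹 I u φ c' N b w := by
  obtain ⟨a, ha, n, hbn⟩ := (mem_closure₂ 𝔹 I b).mp hb
  set z : 𝔹.B₁₂ := 𝔹.r₂ 𝔹.g ^ (N + n) * 𝔹.r₁ (φ ⟨a, ha⟩) with hz
  -- the compatibility `u z = b c'` on the overlap
  have hstar : 𝔹.r₂ u * z = 𝔹.r₂ (b * c') := by
    have hcomm := congrArg 𝔹.r₁ (functional_mul_comm I φ ⟨a, ha⟩ au)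
    simp only [map_mul] at hcomm
    rw [map_mul, hu, hbn, hc', hz, pow_add, pow_add]
    linear_combination (𝔹.r₂ 𝔹.g ^ nu * 𝔹.r₂ 𝔹.g ^ N * 𝔹.r₂ 𝔹.g ^ n) * hcomm
  obtain ⟨w₁, K, hw₁⟩ := 𝔹.surj₂ z
  obtain ⟨q, hq⟩ := exists_pow_expansion s 𝔹.g u hs K
  set w : 𝔹.B₂ := q * (b * c') + s ^ K * w₁ with hw
  have hstar' : 𝔹.r₂ b * 𝔹.r₂ c' = 𝔹.r₂ u * z := by rw [← map_mul, hstar]
  have hw₁' : 𝔹.r₂ w₁ = z * 𝔹.r₂ 𝔹.g ^ K := by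
    rw [hw₁, mul_assoc, rf_pow_mul_rg_pow, mul_one]
  have hrw : 𝔹.r₂ w = z := by
    have hq' := congrArg 𝔹.r₂ hq
    simp only [map_add, map_mul, map_pow, map_one] at hq'
    rw [hw]
    simp only [map_add, map_mul, map_pow]
    linear_combination (𝔹.r₂ q) * hstar' + z * hq' + (𝔹.r₂ s ^ K) * hw₁'
  set t : 𝔹.B₂ := u * w - b * c' with ht
  have hrt : 𝔹.r₂ t = 0 := by
    rw [ht, map_sub, map_mul, hrw, hstar, sub_self]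
  obtain ⟨m, hm⟩ := 𝔹.ker₂ t hrt
  obtain ⟨q', hq'⟩ := exists_pow_expansion s 𝔹.g u hs m
  refine ⟨w - q' * t, ?_, ⟨a, ha⟩, n, hbn, ?_⟩
  · have : u * (w - q' * t) - b * c' = t - u * q' * t := by rw [ht]; ring
    have h2 : t - u * q' * t = 0 := by linear_combination (-t) * hq' + s ^ m * hm
    exact sub_eq_zero.mp (this.trans h2)
  · rw [map_sub, map_mul, hrt, mul_zero, sub_zero, hrw]

/-- **Transfer of functionals.** A functional `φ` on `I ⊆ B₁` induces, after multiplication by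
a power of `g`, a functional on the closure ideal `r₂⁻¹(I B₁₂) ⊆ B₂`, provided the closure ideal
contains an element `u` with `(g, u) = 1`. -/
lemma exists_transfer_functional (hs : s * 𝔹.g + u = 1) (hu : u ∈ closure₂ 𝔹 I)
    (φ : I →ₗ[𝔹.B₁] 𝔹.B₁) :
    ∃ (N : ℕ) (ψ : closure₂ 𝔹 I →ₗ[𝔹.B₂] 𝔹.B₂), ∀ (b : closure₂ 𝔹 I) (a : I) (n : ℕ),
      𝔹.r₂ b = 𝔹.r₁ a * 𝔹.r₂ 𝔹.g ^ n → 𝔹.r₂ (ψ b) = 𝔹.r₂ 𝔹.g ^ (N + n) * 𝔹.r₁ (φ a) := by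
  obtain ⟨au, hau, nu, hun⟩ := (mem_closure₂ 𝔹 I u).mp hu
  obtain ⟨c', N, hc'⟩ := 𝔹.surj₂ (𝔹.r₂ 𝔹.g ^ nu * 𝔹.r₁ (φ ⟨au, hau⟩))
  have hc'' : 𝔹.r₂ c' = 𝔹.r₂ 𝔹.g ^ (N + nu) * 𝔹.r₁ (φ ⟨au, hau⟩) := by
    have e1 := rf_pow_mul_rg_pow 𝔹 N
    rw [pow_add]
    linear_combination (-(𝔹.r₂ 𝔹.g ^ N)) * hc' - (𝔹.r₂ c') * e1
  have hex : ∀ b : closure₂ 𝔹 I, ∃ w, TransRel 𝔹 I u φ c' N b w := fun b =>
    TransRel.exists hs ⟨au, hau⟩ nu hun hc'' b.1 b.2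
  choose w hw using hex
  refine ⟨N, { toFun := w, map_add' := ?_, map_smul' := ?_ }, ?_⟩
  · intro b b'
    exact TransRel.unique hs (hw (b + b')) ((hw b).add (hw b'))
  · intro β b
    exact TransRel.unique hs (hw (β • b)) ((hw b).smul β)
  · intro b a n hb
    exact (hw b).apply_eq a n hb

/-- **Transfer of invertibility ((Closed) step).**  If the ideal `I ⊆ B₁` has unit trace ideal
(i.e. is an invertible module) and its closure ideal `r₂⁻¹(I B₁₂) ⊆ B₂` contains an element `u`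
with `s g + u = 1`, then the closure ideal has unit trace ideal. -/
theorem traceIdeal_closure₂_eq_top (hs : s * 𝔹.g + u = 1) (hu : u ∈ closure₂ 𝔹 I)
    (hI : traceIdeal I = ⊤) : traceIdeal (closure₂ 𝔹 I) = ⊤ := by
  have key : ∀ t ∈ traceIdeal I, ∃ (K : ℕ) (v : 𝔹.B₂), v ∈ traceIdeal (closure₂ 𝔹 I) ∧
      𝔹.r₂ v = 𝔹.r₂ 𝔹.g ^ K * 𝔹.r₁ t := by
    intro t ht
    refine Submodule.span_induction (p := fun t _ => ∃ (K : ℕ) (v : 𝔹.B₂),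
      v ∈ traceIdeal (closure₂ 𝔹 I) ∧ 𝔹.r₂ v = 𝔹.r₂ 𝔹.g ^ K * 𝔹.r₁ t) ?_ ?_ ?_ ?_ ht
    · rintro _ ⟨φ, a, rfl⟩
      obtain ⟨N, ψ, hψ⟩ := exists_transfer_functional hs hu φ
      obtain ⟨c, n, hc⟩ := 𝔹.surj₂ (𝔹.r₁ (a : 𝔹.B₁))
      have hc' : 𝔹.r₂ c = 𝔹.r₁ (a : 𝔹.B₁) * 𝔹.r₂ 𝔹.g ^ n := by
        rw [hc, mul_assoc, rf_pow_mul_rg_pow, mul_one]
      have hcm : c ∈ closure₂ 𝔹 I := (mem_closure₂ 𝔹 I c).mpr ⟨a, a.2, n, hc'⟩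
      exact ⟨N + n, ψ ⟨c, hcm⟩, apply_mem_traceIdeal _ _ _, hψ ⟨c, hcm⟩ a n hc'⟩
    · exact ⟨0, 0, Ideal.zero_mem _, by simp⟩
    · rintro x y _ _ ⟨K, v, hv, hvx⟩ ⟨K', v', hv', hvy⟩
      refine ⟨K + K', 𝔹.g ^ K' * v + 𝔹.g ^ K * v',
        Ideal.add_mem _ (Ideal.mul_mem_left _ _ hv) (Ideal.mul_mem_left _ _ hv'), ?_⟩
      simp only [map_add, map_mul, map_pow, hvx, hvy, pow_add]
      ring
    · rintro c x _ ⟨K, v, hv, hvx⟩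
      obtain ⟨e, m, he⟩ := 𝔹.surj₂ (𝔹.r₁ c)
      refine ⟨K + m, e * v, Ideal.mul_mem_left _ _ hv, ?_⟩
      have e1 := rf_pow_mul_rg_pow 𝔹 m
      simp only [smul_eq_mul, map_mul, hvx, pow_add]
      linear_combination (-(𝔹.r₂ 𝔹.g ^ K * 𝔹.r₁ x * 𝔹.r₂ 𝔹.g ^ m)) * he
        - (𝔹.r₂ e * 𝔹.r₂ 𝔹.g ^ K * 𝔹.r₁ x) * e1
  obtain ⟨K, v, hv, hvr⟩ := key 1 (by rw [hI]; trivial)
  have h0 : 𝔹.r₂ (v - 𝔹.g ^ K) = 0 := by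
    rw [map_sub, hvr, map_one, mul_one, map_pow, sub_self]
  obtain ⟨m, hm⟩ := 𝔹.ker₂ _ h0
  have hg : 𝔹.g ^ (m + K) ∈ traceIdeal (closure₂ 𝔹 I) := by
    have : 𝔹.g ^ (m + K) = 𝔹.g ^ m * v := by
      rw [pow_add]; linear_combination -hm
    rw [this]
    exact Ideal.mul_mem_left _ _ hv
  obtain ⟨q, hq⟩ := exists_pow_expansion s 𝔹.g u hs (m + K)
  rw [Ideal.eq_top_iff_one, ← hq]
  exact Ideal.add_mem _ (Ideal.mul_mem_left _ _ hg)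
    (Ideal.mul_mem_right _ _ (le_traceIdeal _ hu))

/-- Module form of the transfer of invertibility. -/
theorem invertible_closure₂ (hs : s * 𝔹.g + u = 1) (hu : u ∈ closure₂ 𝔹 I)
    [Module.Invertible 𝔹.B₁ I] : Module.Invertible 𝔹.B₂ (closure₂ 𝔹 I) :=
  invertible_of_traceIdeal_eq_top _
    (traceIdeal_closure₂_eq_top hs hu (traceIdeal_eq_top_of_invertible I))

end Transfer

/-! ## The mirrored statements (closure in the first chart) -/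

section Mirror

variable {𝔹 : TwoChart R} {I : Ideal 𝔹.B₂} {u s : 𝔹.B₁}

/-- Transfer of invertibility from an ideal of the second chart to its closure in the first. -/
theorem traceIdeal_closure₁_eq_top (hs : s * 𝔹.f + u = 1) (hu : u ∈ closure₁ 𝔹 I)
    (hI : traceIdeal I = ⊤) : traceIdeal (closure₁ 𝔹 I) = ⊤ :=
  traceIdeal_closure₂_eq_top (𝔹 := swapChart 𝔹) hs hu hI

theorem invertible_closure₁ (hs : s * 𝔹.f + u = 1) (hu : u ∈ closure₁ 𝔹 I)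
    [Module.Invertible 𝔹.B₂ I] : Module.Invertible 𝔹.B₁ (closure₁ 𝔹 I) :=
  invertible_of_traceIdeal_eq_top _
    (traceIdeal_closure₁_eq_top hs hu (traceIdeal_eq_top_of_invertible I))

end Mirror

/-! ## Invertible ideal data and line bundles -/

namespace IdealDatum

variable {𝔹 : TwoChart R}

/-- An ideal datum is invertible if both chart ideals are invertible modules
(unit trace ideals). -/
def IsInv (D : IdealDatum 𝔹) : Prop := traceIdeal D.I₁ = ⊤ ∧ traceIdeal D.I₂ = ⊤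

lemma isInv_one : (1 : IdealDatum 𝔹).IsInv := ⟨traceIdeal_top, traceIdeal_top⟩

lemma IsInv.mul {D D' : IdealDatum 𝔹} (h : D.IsInv) (h' : D'.IsInv) : (D * D').IsInv :=
  ⟨traceIdeal_mul_eq_top _ _ h.1 h'.1, traceIdeal_mul_eq_top _ _ h.2 h'.2⟩

lemma IsInv.pow {D : IdealDatum 𝔹} (h : D.IsInv) (n : ℕ) : (D ^ n).IsInv := by
  induction n with
  | zero => rw [pow_zero]; exact isInv_one
  | succ n ih => rw [pow_succ]; exact ih.mul h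

lemma isInv_list_prod (l : List (IdealDatum 𝔹)) (h : ∀ D ∈ l, D.IsInv) : l.prod.IsInv := by
  induction l with
  | nil => exact isInv_one
  | cons a l ih =>
    rw [List.prod_cons]
    exact (h a List.mem_cons_self).mul (ih fun D hD => h D (List.mem_cons_of_mem _ hD))

/-- The glued module of an invertible ideal datum is a line bundle. -/
theorem IsInv.isLineBundle {D : IdealDatum 𝔹} (h : D.IsInv) : D.toGlued.IsLineBundle :=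
  ⟨invertible_of_traceIdeal_eq_top _ h.1, invertible_of_traceIdeal_eq_top _ h.2⟩

end IdealDatum

/-! ## Points -/

section Points

variable (𝔹 : TwoChart R)

/-- The ideal datum of (the graph of) a point of the first chart. -/
def ptDatum₁ (x : 𝔹.B₁ →ₐ[R] R) : IdealDatum 𝔹 := ofIdeal₁ 𝔹 (RingHom.ker x)

/-- The ideal datum of (the graph of) a point of the second chart. -/
def ptDatum₂ (x : 𝔹.B₂ →ₐ[R] R) : IdealDatum 𝔹 := ofIdeal₂ 𝔹 (RingHom.ker x)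

@[simp] lemma ptDatum₁_I₁ (x : 𝔹.B₁ →ₐ[R] R) : (ptDatum₁ 𝔹 x).I₁ = RingHom.ker x := rfl
@[simp] lemma ptDatum₁_I₂ (x : 𝔹.B₁ →ₐ[R] R) :
    (ptDatum₁ 𝔹 x).I₂ = closure₂ 𝔹 (RingHom.ker x) := rfl
@[simp] lemma ptDatum₂_I₂ (x : 𝔹.B₂ →ₐ[R] R) : (ptDatum₂ 𝔹 x).I₂ = RingHom.ker x := rfl
@[simp] lemma ptDatum₂_I₁ (x : 𝔹.B₂ →ₐ[R] R) :
    (ptDatum₂ 𝔹 x).I₁ = closure₁ 𝔹 (RingHom.ker x) := rfl

/-- The graph of a point of the first chart is closed in the second chart: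
`1 - x(f) g` lies in the closure ideal. -/
lemma one_sub_mem_closure₂ (x : 𝔹.B₁ →ₐ[R] R) :
    1 - algebraMap R 𝔹.B₂ (x 𝔹.f) * 𝔹.g ∈ closure₂ 𝔹 (RingHom.ker x) := by
  rw [mem_closure₂]
  refine ⟨𝔹.f - algebraMap R 𝔹.B₁ (x 𝔹.f), ?_, 1, ?_⟩
  · rw [RingHom.mem_ker, map_sub, AlgHom.commutes]
    simp
  · have h := 𝔹.fg
    simp only [map_sub, map_mul, map_one, AlgHom.commutes, pow_one]
    linear_combination -h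

lemma one_sub_mem_closure₁ (x : 𝔹.B₂ →ₐ[R] R) :
    1 - algebraMap R 𝔹.B₁ (x 𝔹.g) * 𝔹.f ∈ closure₁ 𝔹 (RingHom.ker x) :=
  one_sub_mem_closure₂ (swapChart 𝔹) x

/-- The point datum of a point of the first chart is invertible as soon as its graph ideal is. -/
theorem isInv_ptDatum₁ (x : 𝔹.B₁ →ₐ[R] R) (h : traceIdeal (RingHom.ker x) = ⊤) :
    (ptDatum₁ 𝔹 x).IsInv :=
  ⟨h, traceIdeal_closure₂_eq_top (s := algebraMap R 𝔹.B₂ (x 𝔹.f)) (by ring)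
    (one_sub_mem_closure₂ 𝔹 x) h⟩

/-- The point datum of a point of the second chart is invertible as soon as its graph ideal is. -/
theorem isInv_ptDatum₂ (x : 𝔹.B₂ →ₐ[R] R) (h : traceIdeal (RingHom.ker x) = ⊤) :
    (ptDatum₂ 𝔹 x).IsInv :=
  ⟨traceIdeal_closure₁_eq_top (s := algebraMap R 𝔹.B₁ (x 𝔹.g)) (by ring)
    (one_sub_mem_closure₁ 𝔹 x) h, h⟩

/-- **Overlap agreement.** A point of the overlap has the same ideal datum whether it is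
regarded as a point of the first or of the second chart. -/
theorem ptDatum₁_eq_ptDatum₂ (x₁₂ : 𝔹.B₁₂ →ₐ[R] R) :
    ptDatum₁ 𝔹 (x₁₂.comp 𝔹.r₁) = ptDatum₂ 𝔹 (x₁₂.comp 𝔹.r₂) := by
  have k₁ : RingHom.ker (x₁₂.comp 𝔹.r₁) = (RingHom.ker x₁₂).comap 𝔹.r₁ := by
    ext b; simp [RingHom.mem_ker]
  have k₂ : RingHom.ker (x₁₂.comp 𝔹.r₂) = (RingHom.ker x₁₂).comap 𝔹.r₂ := by
    ext b; simp [RingHom.mem_ker]
  apply IdealDatum.ext'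
  · rw [ptDatum₁_I₁, ptDatum₂_I₁, closure₁, k₂, map_comap_r₂, k₁]
  · rw [ptDatum₁_I₂, ptDatum₂_I₂, closure₂, k₁, map_comap_r₁, k₂]

/-- `B₁₂` is the localisation of `B₁` at `f`. -/
lemma isLocalization_away_r₁ :
    letI := (𝔹.r₁ : 𝔹.B₁ →+* 𝔹.B₁₂).toAlgebra
    IsLocalization.Away 𝔹.f 𝔹.B₁₂ := by
  let _ := (𝔹.r₁ : 𝔹.B₁ →+* 𝔹.B₁₂).toAlgebra
  refine (isLocalization_iff _ _).mpr ⟨?_, ?_, ?_⟩
  · rintro ⟨_, n, rfl⟩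
    change IsUnit (𝔹.r₁ (𝔹.f ^ n))
    rw [map_pow]
    exact IsUnit.of_mul_eq_one _ (rf_pow_mul_rg_pow 𝔹 n)
  · intro z
    obtain ⟨a, n, rfl⟩ := 𝔹.surj₁ z
    refine ⟨(a, ⟨𝔹.f ^ n, n, rfl⟩), ?_⟩
    change 𝔹.r₁ a * 𝔹.r₂ 𝔹.g ^ n * 𝔹.r₁ (𝔹.f ^ n) = 𝔹.r₁ a
    rw [map_pow, mul_assoc, rg_pow_mul_rf_pow, mul_one]
  · intro x y hxy
    have : 𝔹.r₁ (x - y) = 0 := by rw [map_sub]; exact sub_eq_zero.mpr hxy
    obtain ⟨m, hm⟩ := 𝔹.ker₁ _ this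
    refine ⟨⟨𝔹.f ^ m, m, rfl⟩, ?_⟩
    change 𝔹.f ^ m * x = 𝔹.f ^ m * y
    linear_combination hm

/-- A point of the first chart at which `f` is invertible extends to the overlap. -/
theorem exists_overlap_point₁ (x₁ : 𝔹.B₁ →ₐ[R] R) (h : IsUnit (x₁ 𝔹.f)) :
    ∃ x₁₂ : 𝔹.B₁₂ →ₐ[R] R, x₁₂.comp 𝔹.r₁ = x₁ := by
  let _ := (𝔹.r₁ : 𝔹.B₁ →+* 𝔹.B₁₂).toAlgebra
  have := isLocalization_away_r₁ 𝔹
  let l : 𝔹.B₁₂ →+* R :=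
    IsLocalization.Away.lift (S := 𝔹.B₁₂) 𝔹.f (g := (x₁ : 𝔹.B₁ →+* R)) h
  have hl : ∀ a, l (𝔹.r₁ a) = x₁ a := fun a =>
    IsLocalization.Away.lift_eq (S := 𝔹.B₁₂) 𝔹.f (g := (x₁ : 𝔹.B₁ →+* R)) h a
  refine ⟨{ l with commutes' := fun c => ?_ }, ?_⟩
  · change l (algebraMap R 𝔹.B₁₂ c) = algebraMap R R c
    rw [← 𝔹.r₁.commutes c, hl, x₁.commutes]
  · ext a; exact hl a

/-- A point of the second chart at which `g` is invertible extends to the overlap. -/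
theorem exists_overlap_point₂ (x₂ : 𝔹.B₂ →ₐ[R] R) (h : IsUnit (x₂ 𝔹.g)) :
    ∃ x₁₂ : 𝔹.B₁₂ →ₐ[R] R, x₁₂.comp 𝔹.r₂ = x₂ :=
  exists_overlap_point₁ (swapChart 𝔹) x₂ h

/-- A point of the first chart with `f` invertible is also a point of the second chart, with the
same ideal datum. -/
theorem exists_ptDatum₂_eq (x₁ : 𝔹.B₁ →ₐ[R] R) (h : IsUnit (x₁ 𝔹.f)) :
    ∃ x₂ : 𝔹.B₂ →ₐ[R] R, ptDatum₂ 𝔹 x₂ = ptDatum₁ 𝔹 x₁ := by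
  obtain ⟨x₁₂, rfl⟩ := exists_overlap_point₁ 𝔹 x₁ h
  exact ⟨x₁₂.comp 𝔹.r₂, (ptDatum₁_eq_ptDatum₂ 𝔹 x₁₂).symm⟩

/-- A point of the second chart with `g` invertible is also a point of the first chart, with the
same ideal datum. -/
theorem exists_ptDatum₁_eq (x₂ : 𝔹.B₂ →ₐ[R] R) (h : IsUnit (x₂ 𝔹.g)) :
    ∃ x₁ : 𝔹.B₁ →ₐ[R] R, ptDatum₁ 𝔹 x₁ = ptDatum₂ 𝔹 x₂ := by
  obtain ⟨x₁₂, rfl⟩ := exists_overlap_point₂ 𝔹 x₂ h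
  exact ⟨x₁₂.comp 𝔹.r₁, ptDatum₁_eq_ptDatum₂ 𝔹 x₁₂⟩

/-- At a point of the second chart where `g` vanishes, the first-chart component of the point
datum is the unit ideal. -/
lemma ptDatum₂_I₁_eq_top (x : 𝔹.B₂ →ₐ[R] R) (h : x 𝔹.g = 0) : (ptDatum₂ 𝔹 x).I₁ = ⊤ := by
  rw [ptDatum₂_I₁, Ideal.eq_top_iff_one, mem_closure₁]
  refine ⟨𝔹.g, by rw [RingHom.mem_ker]; exact h, 1, ?_⟩
  rw [map_one, pow_one, mul_comm, 𝔹.fg]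

lemma ptDatum₁_I₂_eq_top (x : 𝔹.B₁ →ₐ[R] R) (h : x 𝔹.f = 0) : (ptDatum₁ 𝔹 x).I₂ = ⊤ :=
  ptDatum₂_I₁_eq_top (swapChart 𝔹) x h

/-- A point of the two-chart: a point of the first chart or of the second chart. -/
abbrev Pt (𝔹 : TwoChart R) := (𝔹.B₁ →ₐ[R] R) ⊕ (𝔹.B₂ →ₐ[R] R)

/-- The ideal datum of a point. -/
def ptDatum : Pt 𝔹 → IdealDatum 𝔹
  | Sum.inl x => ptDatum₁ 𝔹 x
  | Sum.inr x => ptDatum₂ 𝔹 x

/-- The ideal datum of a finite family of points (an effective relative divisor). -/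
def famDatum (l : List (Pt 𝔹)) : IdealDatum 𝔹 := (l.map (ptDatum 𝔹)).prod

lemma famDatum_nil : famDatum 𝔹 [] = 1 := rfl

lemma famDatum_cons (x : Pt 𝔹) (l : List (Pt 𝔹)) :
    famDatum 𝔹 (x :: l) = ptDatum 𝔹 x * famDatum 𝔹 l := by
  simp [famDatum]

lemma famDatum_append (l l' : List (Pt 𝔹)) :
    famDatum 𝔹 (l ++ l') = famDatum 𝔹 l * famDatum 𝔹 l' := by
  simp [famDatum]

/-- The family datum is invertible when all graph ideals of points are. -/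
theorem isInv_famDatum (h₁ : ∀ x : 𝔹.B₁ →ₐ[R] R, traceIdeal (RingHom.ker x) = ⊤)
    (h₂ : ∀ x : 𝔹.B₂ →ₐ[R] R, traceIdeal (RingHom.ker x) = ⊤) (l : List (Pt 𝔹)) :
    (famDatum 𝔹 l).IsInv := by
  apply IdealDatum.isInv_list_prod
  intro D hD
  obtain ⟨x, -, rfl⟩ := List.mem_map.mp hD
  cases x with
  | inl x => exact isInv_ptDatum₁ 𝔹 x (h₁ x)
  | inr x => exact isInv_ptDatum₂ 𝔹 x (h₂ x)

end Points

end Fermat.Agent.S25.TWIST.G1.H3108
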