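/-
S25 (Jacobian), package TWIST, helper3108.  On Core + Defs (frozen interface of helper5425).

Base change of ideal data and of point data:
* an invertible ideal datum whose extension along a morphism of two-charts is again an invertible
  ideal datum satisfies the frozen relation `GluedModule.IsBC` (`IdealDatum.isBC_of_map`);
* closure ideals commute with base change (`closure₂_map_eq`);
* the point datum of `x` base-changes to the point datum of the base-changed point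
  (`isBC_ptDatum₁`, `isBC_ptDatum₂`, `isBC_famDatum`).
-/
import Fermat.Agent.S25.Defs
import Fermat.Agent.S25.TWIST.G1.H3108.PointDatum

set_option autoImplicit false

universe u

namespace Fermat.Agent.S25.TWIST.G1.H3108

open Fermat.Agent.S25

open scoped TensorProduct

/-! ## The universal property of an extended invertible ideal -/

section IdealBC

variable {B B' : Type u} [CommRing B] [CommRing B'] (ψ : B →+* B') (I : Ideal B) (I' : Ideal B')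

/-- If `I` and `I' = I·B'` are both invertible, then `I'` has the universal property of
`B' ⊗[B] I`. -/
theorem ideal_univ_of_map_eq (hI : traceIdeal I = ⊤) (hI' : traceIdeal I' = ⊤)
    (hmap : I.map ψ = I') (j : I →+ I') (hj : ∀ a : I, (j a : B') = ψ a)
    (Q : Type u) [AddCommGroup Q] [Module B' Q] (h : I →+ Q)
    (hh : ∀ (b : B) (n : I), h (b • n) = ψ b • h n) :
    ∃! h' : I' →ₗ[B'] Q, ∀ n, h' (j n) = h n := by
  let _ : Algebra B B' := ψ.toAlgebra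
  have : Module.Invertible B I := invertible_of_traceIdeal_eq_top I hI
  have : Module.Invertible B' I' := invertible_of_traceIdeal_eq_top I' hI'
  let jl : I →ₗ[B] I' :=
    { toFun := j
      map_add' := map_add j
      map_smul' := fun b a => Subtype.ext (by
        change (j (b • a) : B') = ψ b * (j a : B')
        rw [hj, hj]
        exact map_mul ψ b a) }
  let m : B' ⊗[B] I →ₗ[B'] I' := LinearMap.liftBaseChange B' jl
  have hm1 : ∀ (b' : B') (a : I), m (b' ⊗ₜ[B] a) = b' • j a := fun b' a => by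
    simp [m, jl]
  have hsurj' : ∀ y ∈ I.map ψ, ∃ z : B' ⊗[B] I, (m z : B') = y := by
    intro y hy
    refine Submodule.span_induction (p := fun y _ => ∃ z : B' ⊗[B] I, (m z : B') = y)
      ?_ ?_ ?_ ?_ hy
    · rintro _ ⟨a, ha, rfl⟩
      exact ⟨1 ⊗ₜ[B] ⟨a, ha⟩, by rw [hm1, one_smul, hj]⟩
    · exact ⟨0, by simp⟩
    · rintro y y' _ _ ⟨z, rfl⟩ ⟨z', rfl⟩
      exact ⟨z + z', by simp⟩
    · rintro c y _ ⟨z, rfl⟩
      exact ⟨c • z, by simp⟩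
  have hm : Function.Surjective m := by
    intro t
    obtain ⟨z, hz⟩ := hsurj' t.1 (by rw [hmap]; exact t.2)
    exact ⟨z, Subtype.ext hz⟩
  have hbij : Function.Bijective m := Module.Invertible.bijective_of_surjective hm
  let e : (B' ⊗[B] I) ≃ₗ[B'] I' := LinearEquiv.ofBijective m hbij
  let _ : Module B Q := Module.compHom Q ψ
  have : IsScalarTower B B' Q := IsScalarTower.of_algebraMap_smul fun _ _ => rfl
  let hl : I →ₗ[B] Q :=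
    { toFun := h
      map_add' := map_add h
      map_smul' := fun b n => hh b n }
  let h₀ : B' ⊗[B] I →ₗ[B'] Q := LinearMap.liftBaseChange B' hl
  refine ⟨h₀ ∘ₗ e.symm.toLinearMap, ?_, ?_⟩
  · intro n
    have h1 : e.symm (j n) = 1 ⊗ₜ[B] n := by
      rw [LinearEquiv.symm_apply_eq]
      change j n = m (1 ⊗ₜ[B] n)
      rw [hm1, one_smul]
    change h₀ (e.symm (j n)) = h n
    rw [h1]
    simp [h₀, hl]
  · intro h'' hh''
    have hall : ∀ z : B' ⊗[B] I, h'' (m z) = h₀ z := by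
      intro z
      induction z using TensorProduct.induction_on with
      | zero => simp
      | tmul b' a =>
        rw [hm1, map_smul, hh'']
        simp [h₀, hl]
      | add z z' hz hz' => rw [map_add, map_add, map_add, hz, hz']
    apply LinearMap.ext
    intro t
    obtain ⟨z, rfl⟩ := hm t
    change h'' (m z) = h₀ (e.symm (m z))
    have h2 : e.symm (m z) = z := e.symm_apply_apply z
    rw [h2, hall]

end IdealBC

/-! ## Base change of ideal data -/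

section DatumBC

variable {R R' : Type u} [CommRing R] [CommRing R'] {φ : R →+* R'}
  {𝔹 : TwoChart R} {𝔹' : TwoChart R'} (Ψ : TwoChart.Hom φ 𝔹 𝔹')

lemma hom_map_rg_pow (n : ℕ) : Ψ.ψ₁₂ (𝔹.r₂ 𝔹.g ^ n) = 𝔹'.r₂ 𝔹'.g ^ n := by
  rw [map_pow, Ψ.comm₂, Ψ.map_g]

lemma hom_map_rf_pow (n : ℕ) : Ψ.ψ₁₂ (𝔹.r₁ 𝔹.f ^ n) = 𝔹'.r₁ 𝔹'.f ^ n := by
  rw [map_pow, Ψ.comm₁, Ψ.map_f]

/-- The morphism of swapped two-charts. -/
def swapHom : TwoChart.Hom φ (swapChart 𝔹) (swapChart 𝔹') where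
  ψ₁ := Ψ.ψ₂
  ψ₂ := Ψ.ψ₁
  ψ₁₂ := Ψ.ψ₁₂
  comm₁ := Ψ.comm₂
  comm₂ := Ψ.comm₁
  map_f := Ψ.map_g
  map_g := Ψ.map_f
  alg₁ := Ψ.alg₂
  alg₂ := Ψ.alg₁
  alg₁₂ := Ψ.alg₁₂

/-- **Base change of an invertible ideal datum.**  If `D'` is the extension of `D` along a
morphism of two-charts and both are invertible, then `D'.toGlued` is the base change of
`D.toGlued` in the sense of the frozen relation `IsBC`. -/
theorem IdealDatum.isBC_of_map (D : IdealDatum 𝔹) (D' : IdealDatum 𝔹') (hD : D.IsInv)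
    (hD' : D'.IsInv) (h₁ : D.I₁.map Ψ.ψ₁ = D'.I₁) (h₂ : D.I₂.map Ψ.ψ₂ = D'.I₂) :
    GluedModule.IsBC Ψ D.toGlued D'.toGlued := by
  have h₁₂ : ∀ y ∈ D.I₁₂, Ψ.ψ₁₂ y ∈ D'.I₁₂ := by
    intro y hy
    rw [← D.map₁] at hy
    obtain ⟨a, ha, n, rfl⟩ := (mem_map_r₁ 𝔹 D.I₁ y).mp hy
    rw [← D'.map₁, mem_map_r₁]
    refine ⟨Ψ.ψ₁ a, by rw [← h₁]; exact Ideal.mem_map_of_mem _ ha, n, ?_⟩
    rw [map_mul, Ψ.comm₁, hom_map_rg_pow]
  let j₁ : D.I₁ →+ D'.I₁ :=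
    { toFun := fun a => ⟨Ψ.ψ₁ (a : 𝔹.B₁), by rw [← h₁]; exact Ideal.mem_map_of_mem _ a.2⟩
      map_zero' := Subtype.ext (map_zero Ψ.ψ₁)
      map_add' := fun a b => Subtype.ext (map_add Ψ.ψ₁ (a : 𝔹.B₁) b) }
  let j₂ : D.I₂ →+ D'.I₂ :=
    { toFun := fun a => ⟨Ψ.ψ₂ (a : 𝔹.B₂), by rw [← h₂]; exact Ideal.mem_map_of_mem _ a.2⟩
      map_zero' := Subtype.ext (map_zero Ψ.ψ₂)
      map_add' := fun a b => Subtype.ext (map_add Ψ.ψ₂ (a : 𝔹.B₂) b) }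
  let j₁₂ : D.I₁₂ →+ D'.I₁₂ :=
    { toFun := fun a => ⟨Ψ.ψ₁₂ (a : 𝔹.B₁₂), h₁₂ a a.2⟩
      map_zero' := Subtype.ext (map_zero Ψ.ψ₁₂)
      map_add' := fun a b => Subtype.ext (map_add Ψ.ψ₁₂ (a : 𝔹.B₁₂) b) }
  exact ⟨{
    j₁ := j₁
    j₂ := j₂
    j₁₂ := j₁₂
    j₁_smul := fun b (n : D.I₁) => Subtype.ext (map_mul Ψ.ψ₁ b (n : 𝔹.B₁))
    j₂_smul := fun b (n : D.I₂) => Subtype.ext (map_mul Ψ.ψ₂ b (n : 𝔹.B₂))
    j₁₂_smul := fun b (n : D.I₁₂) => Subtype.ext (map_mul Ψ.ψ₁₂ b (n : 𝔹.B₁₂))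
    comm₁ := fun (n : D.I₁) => Subtype.ext (Ψ.comm₁ (n : 𝔹.B₁))
    comm₂ := fun (n : D.I₂) => Subtype.ext (Ψ.comm₂ (n : 𝔹.B₂))
    univ₁ := fun Q _ _ h hh =>
      ideal_univ_of_map_eq Ψ.ψ₁ D.I₁ D'.I₁ hD.1 hD'.1 h₁ j₁ (fun _ => rfl) Q h hh
    univ₂ := fun Q _ _ h hh =>
      ideal_univ_of_map_eq Ψ.ψ₂ D.I₂ D'.I₂ hD.2 hD'.2 h₂ j₂ (fun _ => rfl) Q h hh }⟩

/-- **Closure ideals commute with base change.** -/
theorem closure₂_map_eq (I : Ideal 𝔹.B₁) (u s : 𝔹.B₂) (hs : s * 𝔹.g + u = 1)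
    (hu : u ∈ closure₂ 𝔹 I) :
    (closure₂ 𝔹 I).map Ψ.ψ₂ = closure₂ 𝔹' (I.map Ψ.ψ₁) := by
  apply le_antisymm
  · rw [Ideal.map_le_iff_le_comap]
    intro b hb
    obtain ⟨a, ha, n, hbn⟩ := (mem_closure₂ 𝔹 I b).mp hb
    rw [Ideal.mem_comap, mem_closure₂]
    refine ⟨Ψ.ψ₁ a, Ideal.mem_map_of_mem _ ha, n, ?_⟩
    rw [← Ψ.comm₂, hbn, map_mul, Ψ.comm₁, hom_map_rg_pow]
  · intro t ht
    obtain ⟨a', ha', n, htn⟩ := (mem_closure₂ 𝔹' _ t).mp ht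
    set J : Ideal 𝔹'.B₂ := (closure₂ 𝔹 I).map Ψ.ψ₂ with hJ
    have key : ∀ a' ∈ I.map Ψ.ψ₁, ∃ (M : ℕ) (c : 𝔹'.B₂), c ∈ J ∧
        𝔹'.r₂ c = 𝔹'.r₁ a' * 𝔹'.r₂ 𝔹'.g ^ M := by
      intro a' ha'
      refine Submodule.span_induction (p := fun a' _ => ∃ (M : ℕ) (c : 𝔹'.B₂), c ∈ J ∧
        𝔹'.r₂ c = 𝔹'.r₁ a' * 𝔹'.r₂ 𝔹'.g ^ M) ?_ ?_ ?_ ?_ ha'
      · rintro _ ⟨a, ha, rfl⟩
        obtain ⟨c₀, m, hc₀⟩ := 𝔹.surj₂ (𝔹.r₁ a)
        have hc₀' : 𝔹.r₂ c₀ = 𝔹.r₁ a * 𝔹.r₂ 𝔹.g ^ m := by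
          rw [hc₀, mul_assoc, rf_pow_mul_rg_pow, mul_one]
        refine ⟨m, Ψ.ψ₂ c₀, Ideal.mem_map_of_mem _ ((mem_closure₂ 𝔹 I c₀).mpr ⟨a, ha, m, hc₀'⟩), ?_⟩
        rw [← Ψ.comm₂, hc₀', map_mul, Ψ.comm₁, hom_map_rg_pow]
      · exact ⟨0, 0, Ideal.zero_mem _, by simp⟩
      · rintro x y _ _ ⟨M, c, hc, hcx⟩ ⟨M', c', hc', hcy⟩
        refine ⟨M + M', 𝔹'.g ^ M' * c + 𝔹'.g ^ M * c',
          Ideal.add_mem _ (Ideal.mul_mem_left _ _ hc) (Ideal.mul_mem_left _ _ hc'), ?_⟩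
        simp only [map_add, map_mul, map_pow, hcx, hcy, pow_add]
        ring
      · rintro β x _ ⟨M, c, hc, hcx⟩
        obtain ⟨γ, m, hγ⟩ := 𝔹'.surj₂ (𝔹'.r₁ β)
        refine ⟨M + m, γ * c, Ideal.mul_mem_left _ _ hc, ?_⟩
        have e1 := rf_pow_mul_rg_pow 𝔹' m
        simp only [smul_eq_mul, map_mul, hcx, pow_add]
        linear_combination (-(𝔹'.r₁ x * 𝔹'.r₂ 𝔹'.g ^ M * 𝔹'.r₂ 𝔹'.g ^ m)) * hγ
          - (𝔹'.r₂ γ * 𝔹'.r₁ x * 𝔹'.r₂ 𝔹'.g ^ M) * e1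
    obtain ⟨M, c, hc, hcr⟩ := key a' ha'
    have h0 : 𝔹'.r₂ (𝔹'.g ^ M * t - 𝔹'.g ^ n * c) = 0 := by
      simp only [map_sub, map_mul, map_pow, htn, hcr]
      ring
    obtain ⟨m, hm⟩ := 𝔹'.ker₂ _ h0
    have hgt : 𝔹'.g ^ (m + M) * t ∈ J := by
      have : 𝔹'.g ^ (m + M) * t = 𝔹'.g ^ m * 𝔹'.g ^ n * c := by
        rw [pow_add]; linear_combination hm
      rw [this]
      exact Ideal.mul_mem_left _ _ hc
    have hs' : Ψ.ψ₂ s * 𝔹'.g + Ψ.ψ₂ u = 1 := by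
      rw [← Ψ.map_g, ← map_mul, ← map_add, hs, map_one]
    obtain ⟨q, hq⟩ := exists_pow_expansion (Ψ.ψ₂ s) 𝔹'.g (Ψ.ψ₂ u) hs' (m + M)
    have hu' : Ψ.ψ₂ u ∈ J := Ideal.mem_map_of_mem _ hu
    have : t = Ψ.ψ₂ s ^ (m + M) * (𝔹'.g ^ (m + M) * t) + (q * t) * Ψ.ψ₂ u := by
      linear_combination (-t) * hq
    rw [this]
    exact Ideal.add_mem _ (Ideal.mul_mem_left _ _ hgt) (Ideal.mul_mem_left _ _ hu')

/-- Mirror image of `closure₂_map_eq`. -/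
theorem closure₁_map_eq (I : Ideal 𝔹.B₂) (u s : 𝔹.B₁) (hs : s * 𝔹.f + u = 1)
    (hu : u ∈ closure₁ 𝔹 I) :
    (closure₁ 𝔹 I).map Ψ.ψ₁ = closure₁ 𝔹' (I.map Ψ.ψ₂) :=
  closure₂_map_eq (swapHom Ψ) I u s hs hu

/-- The graph ideal of a point extends to the graph ideal of the base-changed point, provided
`B₁'` is spanned over `R'` by the image of `B₁`. -/
theorem ker_map_eq (x : 𝔹.B₁ →ₐ[R] R) (x' : 𝔹'.B₁ →ₐ[R'] R')
    (hx : ∀ b, x' (Ψ.ψ₁ b) = φ (x b))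
    (hspan : ∀ b' : 𝔹'.B₁, b' ∈ Submodule.span R' (Set.range Ψ.ψ₁)) :
    (RingHom.ker x).map Ψ.ψ₁ = RingHom.ker x' := by
  apply le_antisymm
  · rw [Ideal.map_le_iff_le_comap]
    intro a ha
    rw [Ideal.mem_comap, RingHom.mem_ker, hx, (RingHom.mem_ker).mp ha, map_zero]
  · intro t ht
    have key : ∀ t ∈ Submodule.span R' (Set.range Ψ.ψ₁),
        t - algebraMap R' 𝔹'.B₁ (x' t) ∈ (RingHom.ker x).map Ψ.ψ₁ := by
      intro t ht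
      refine Submodule.span_induction (p := fun t _ =>
        t - algebraMap R' 𝔹'.B₁ (x' t) ∈ (RingHom.ker x).map Ψ.ψ₁) ?_ ?_ ?_ ?_ ht
      · rintro _ ⟨b, rfl⟩
        have : Ψ.ψ₁ b - algebraMap R' 𝔹'.B₁ (x' (Ψ.ψ₁ b)) = Ψ.ψ₁ (b - algebraMap R 𝔹.B₁ (x b)) := by
          rw [map_sub, Ψ.alg₁, hx]
        rw [this]
        refine Ideal.mem_map_of_mem _ ?_
        rw [RingHom.mem_ker, map_sub, AlgHom.commutes]
        simp
      · simp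
      · intro a b _ _ ha hb
        have : a + b - algebraMap R' 𝔹'.B₁ (x' (a + b)) =
            (a - algebraMap R' 𝔹'.B₁ (x' a)) + (b - algebraMap R' 𝔹'.B₁ (x' b)) := by
          rw [map_add, map_add]; ring
        rw [this]
        exact Ideal.add_mem _ ha hb
      · intro c a _ ha
        have : c • a - algebraMap R' 𝔹'.B₁ (x' (c • a)) =
            algebraMap R' 𝔹'.B₁ c * (a - algebraMap R' 𝔹'.B₁ (x' a)) := by
          rw [map_smul, smul_eq_mul, map_mul, Algebra.smul_def]; ring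
        rw [this]
        exact Ideal.mul_mem_left _ _ ha
    have h2 := key t (hspan t)
    rw [(RingHom.mem_ker).mp ht, map_zero, sub_zero] at h2
    exact h2

/-- Mirror image of `ker_map_eq`. -/
theorem ker_map_eq₂ (x : 𝔹.B₂ →ₐ[R] R) (x' : 𝔹'.B₂ →ₐ[R'] R')
    (hx : ∀ b, x' (Ψ.ψ₂ b) = φ (x b))
    (hspan : ∀ b' : 𝔹'.B₂, b' ∈ Submodule.span R' (Set.range Ψ.ψ₂)) :
    (RingHom.ker x).map Ψ.ψ₂ = RingHom.ker x' :=
  ker_map_eq (swapHom Ψ) x x' hx hspan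

/-- **Base change of the point datum of a point of the first chart.** -/
theorem isBC_ptDatum₁ (x : 𝔹.B₁ →ₐ[R] R) (x' : 𝔹'.B₁ →ₐ[R'] R')
    (hx : ∀ b, x' (Ψ.ψ₁ b) = φ (x b))
    (hspan : ∀ b' : 𝔹'.B₁, b' ∈ Submodule.span R' (Set.range Ψ.ψ₁))
    (h : traceIdeal (RingHom.ker x) = ⊤) (h' : traceIdeal (RingHom.ker x') = ⊤) :
    GluedModule.IsBC Ψ (ptDatum₁ 𝔹 x).toGlued (ptDatum₁ 𝔹' x').toGlued := by
  refine IdealDatum.isBC_of_map Ψ _ _ (isInv_ptDatum₁ 𝔹 x h) (isInv_ptDatum₁ 𝔹' x' h')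
    (ker_map_eq Ψ x x' hx hspan) ?_
  change (closure₂ 𝔹 (RingHom.ker x)).map Ψ.ψ₂ = closure₂ 𝔹' (RingHom.ker x')
  rw [closure₂_map_eq Ψ _ _ (algebraMap R 𝔹.B₂ (x 𝔹.f)) (by ring) (one_sub_mem_closure₂ 𝔹 x),
    ker_map_eq Ψ x x' hx hspan]

/-- **Base change of the point datum of a point of the second chart.** -/
theorem isBC_ptDatum₂ (x : 𝔹.B₂ →ₐ[R] R) (x' : 𝔹'.B₂ →ₐ[R'] R')
    (hx : ∀ b, x' (Ψ.ψ₂ b) = φ (x b))
    (hspan : ∀ b' : 𝔹'.B₂, b' ∈ Submodule.span R' (Set.range Ψ.ψ₂))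
    (h : traceIdeal (RingHom.ker x) = ⊤) (h' : traceIdeal (RingHom.ker x') = ⊤) :
    GluedModule.IsBC Ψ (ptDatum₂ 𝔹 x).toGlued (ptDatum₂ 𝔹' x').toGlued := by
  refine IdealDatum.isBC_of_map Ψ _ _ (isInv_ptDatum₂ 𝔹 x h) (isInv_ptDatum₂ 𝔹' x' h') ?_
    (ker_map_eq₂ Ψ x x' hx hspan)
  change (closure₁ 𝔹 (RingHom.ker x)).map Ψ.ψ₁ = closure₁ 𝔹' (RingHom.ker x')
  rw [closure₁_map_eq Ψ _ _ (algebraMap R 𝔹.B₁ (x 𝔹.g)) (by ring) (one_sub_mem_closure₁ 𝔹 x),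
    ker_map_eq₂ Ψ x x' hx hspan]

end DatumBC

end Fermat.Agent.S25.TWIST.G1.H3108
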