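/-
S25 (Jacobian), package TWIST, helper3108.

The point bundles `O(-Γ_x)` on the frozen family two-chart `𝒞.chart R`:
for `x : 𝒞.A₁ →ₐ[k] R` (an `R`-point of the first chart) `ptGM₁ 𝒞 x : GluedModule (𝒞.chart R)`,
for `y : 𝒞.A₂ →ₐ[k] R` `ptGM₂ 𝒞 y`.  Proved here, for EVERY `k`-algebra `R`:

* `ptGM₁_isLineBundle`, `ptGM₂_isLineBundle`   (line bundles);
* `isBC_ptGM₁`, `isBC_ptGM₂`                   (frozen relation `IsBC (𝒞.chartHom φ)`: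
                                                `O(-Γ_x)` base-changes to `O(-Γ_{φ ∘ x})`);
* `ptGM_overlap`                               (EQUALITY `ptGM₁ (x ∘ r₁) = ptGM₂ (x ∘ r₂)` for a
                                                point `x` of the overlap);
* `epsGM`                                      (`O(-ε)`, the case `x = ε`, with `isBC_epsGM`).

Input: invertibility of the diagonal ideals (helper588 `DiagInv`, copied under `D588/`).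
-/
import Fermat.Agent.S25.Defs
import Fermat.Agent.S25.TWIST.G1.H3108.Graph
import Fermat.Agent.S25.TWIST.G1.H3108.PointBC
import Fermat.Agent.S25.TWIST.G1.H3108.D588.DiagInv

set_option autoImplicit false

universe u

namespace Fermat.Agent.S25.TWIST.G1.H3108

open scoped TensorProduct

open Fermat.Agent.S25

section Generic

variable {k : Type u} [CommRing k] {A A' : Type u} [CommRing A] [Algebra k A] [CommRing A']
  [Algebra k A'] {R R' : Type u} [CommRing R] [Algebra k R] [CommRing R'] [Algebra k R']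

/-- The `R`-point of `R ⊗[k] A` given by `x : A → R`. -/
noncomputable def liftPt (x : A →ₐ[k] R) : R ⊗[k] A →ₐ[R] R :=
  Algebra.TensorProduct.lift (AlgHom.id R R) x (fun _ _ => Commute.all _ _)

lemma liftPt_tmul (x : A →ₐ[k] R) (r : R) (a : A) : liftPt x (r ⊗ₜ[k] a) = r * x a := by
  simp [liftPt]

lemma liftPt_comp_map (r : A →ₐ[k] A') (z : A' →ₐ[k] R) (b : R ⊗[k] A) :
    liftPt z (Algebra.TensorProduct.map (AlgHom.id R R) r b) = liftPt (z.comp r) b := by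
  induction b using TensorProduct.induction_on with
  | zero => simp only [map_zero]
  | tmul c a =>
    rw [Algebra.TensorProduct.map_tmul, liftPt_tmul, liftPt_tmul]
    rfl
  | add a b ha hb => simp only [map_add, ha, hb]

lemma liftPt_map (φ : R →ₐ[k] R') (x : A →ₐ[k] R) (b : R ⊗[k] A) :
    liftPt (φ.comp x) (Algebra.TensorProduct.map φ (AlgHom.id k A) b) = φ (liftPt x b) := by
  induction b using TensorProduct.induction_on with
  | zero => simp only [map_zero]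
  | tmul c a =>
    rw [Algebra.TensorProduct.map_tmul, liftPt_tmul, liftPt_tmul, map_mul]
    rfl
  | add a b ha hb => simp only [map_add, ha, hb]

lemma span_range_map (φ : R →ₐ[k] R') (b' : R' ⊗[k] A) :
    b' ∈ Submodule.span R' (Set.range (Algebra.TensorProduct.map φ (AlgHom.id k A))) := by
  induction b' using TensorProduct.induction_on with
  | zero => exact Submodule.zero_mem _
  | tmul c a =>
    have h : (c ⊗ₜ[k] a : R' ⊗[k] A) =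
        c • Algebra.TensorProduct.map φ (AlgHom.id k A) ((1 : R) ⊗ₜ[k] a) := by
      rw [Algebra.TensorProduct.map_tmul, map_one, TensorProduct.smul_tmul', smul_eq_mul, mul_one]
      rfl
    rw [h]
    exact Submodule.smul_mem _ _ (Submodule.subset_span ⟨_, rfl⟩)
  | add a b ha hb => exact Submodule.add_mem _ ha hb

end Generic

section CurvePoint

variable {k : Type u} [Field k] (𝒞 : CurveData k) {R : Type u} [CommRing R] [Algebra k R]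

/-- The `R`-point of the first chart of `C × Spec R` given by `x : A₁ → R`. -/
noncomputable def liftPt₁ (x : 𝒞.A₁ →ₐ[k] R) : (𝒞.chart R).B₁ →ₐ[R] R := liftPt x

/-- The `R`-point of the second chart of `C × Spec R` given by `y : A₂ → R`. -/
noncomputable def liftPt₂ (y : 𝒞.A₂ →ₐ[k] R) : (𝒞.chart R).B₂ →ₐ[R] R := liftPt y

/-- The `R`-point of the overlap of `C × Spec R` given by `z : A₁₂ → R`. -/
noncomputable def liftPt₁₂ (z : 𝒞.A₁₂ →ₐ[k] R) : (𝒞.chart R).B₁₂ →ₐ[R] R := liftPt z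

lemma liftPt₁₂_comp_r₁ (z : 𝒞.A₁₂ →ₐ[k] R) :
    (liftPt₁₂ 𝒞 z).comp (𝒞.chart R).r₁ = liftPt₁ 𝒞 (z.comp 𝒞.r₁) :=
  AlgHom.ext (fun b => liftPt_comp_map 𝒞.r₁ z b)

lemma liftPt₁₂_comp_r₂ (z : 𝒞.A₁₂ →ₐ[k] R) :
    (liftPt₁₂ 𝒞 z).comp (𝒞.chart R).r₂ = liftPt₂ 𝒞 (z.comp 𝒞.r₂) :=
  AlgHom.ext (fun b => liftPt_comp_map 𝒞.r₂ z b)

/-- `𝒞.epsR R` is the lift of the `k`-point `ε`. -/
lemma epsR_eq_liftPt₁ : 𝒞.epsR R = liftPt₁ 𝒞 ((Algebra.ofId k R).comp 𝒞.ε) := rfl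

section BaseChange

variable {R' : Type u} [CommRing R'] [Algebra k R'] (φ : R →ₐ[k] R')

lemma liftPt₁_chartHom (x : 𝒞.A₁ →ₐ[k] R) (b : (𝒞.chart R).B₁) :
    liftPt₁ 𝒞 (φ.comp x) ((𝒞.chartHom φ).ψ₁ b) = φ (liftPt₁ 𝒞 x b) :=
  liftPt_map φ x b

lemma liftPt₂_chartHom (y : 𝒞.A₂ →ₐ[k] R) (b : (𝒞.chart R).B₂) :
    liftPt₂ 𝒞 (φ.comp y) ((𝒞.chartHom φ).ψ₂ b) = φ (liftPt₂ 𝒞 y b) :=
  liftPt_map φ y b

lemma span_range_chartHom_ψ₁ (b' : (𝒞.chart R').B₁) :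
    b' ∈ Submodule.span R' (Set.range (𝒞.chartHom φ).ψ₁) :=
  span_range_map (A := 𝒞.A₁) φ b'

lemma span_range_chartHom_ψ₂ (b' : (𝒞.chart R').B₂) :
    b' ∈ Submodule.span R' (Set.range (𝒞.chartHom φ).ψ₂) :=
  span_range_map (A := 𝒞.A₂) φ b'

end BaseChange

/-- The point bundle `O(-Γ_x)` of an `R`-point of the first chart. -/
noncomputable def ptGM₁ (x : 𝒞.A₁ →ₐ[k] R) : GluedModule (𝒞.chart R) :=
  (ptDatum₁ (𝒞.chart R) (liftPt₁ 𝒞 x)).toGlued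

/-- The point bundle `O(-Γ_y)` of an `R`-point of the second chart. -/
noncomputable def ptGM₂ (y : 𝒞.A₂ →ₐ[k] R) : GluedModule (𝒞.chart R) :=
  (ptDatum₂ (𝒞.chart R) (liftPt₂ 𝒞 y)).toGlued

/-- **Overlap.**  The two descriptions of the point bundle of a point of `U₁ ∩ U₂` are EQUAL. -/
theorem ptDatum_overlap (z : 𝒞.A₁₂ →ₐ[k] R) :
    ptDatum₁ (𝒞.chart R) (liftPt₁ 𝒞 (z.comp 𝒞.r₁)) =
      ptDatum₂ (𝒞.chart R) (liftPt₂ 𝒞 (z.comp 𝒞.r₂)) := by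
  rw [← liftPt₁₂_comp_r₁, ← liftPt₁₂_comp_r₂]
  exact ptDatum₁_eq_ptDatum₂ (𝒞.chart R) (liftPt₁₂ 𝒞 z)

theorem ptGM_overlap (z : 𝒞.A₁₂ →ₐ[k] R) :
    ptGM₁ 𝒞 (z.comp 𝒞.r₁) = ptGM₂ 𝒞 (z.comp 𝒞.r₂) := by
  unfold ptGM₁ ptGM₂
  rw [ptDatum_overlap]

variable [IsAlgClosed k]

theorem traceIdeal_diag₁ : traceIdeal (diagIdeal k 𝒞.A₁) = ⊤ := by
  have : Module.Invertible (𝒞.A₁ ⊗[k] 𝒞.A₁) (diagIdeal k 𝒞.A₁) :=
    D588.curve_diag_invertible₁ 𝒞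
  exact traceIdeal_eq_top_of_invertible _

theorem traceIdeal_diag₂ : traceIdeal (diagIdeal k 𝒞.A₂) = ⊤ := by
  have : Module.Invertible (𝒞.A₂ ⊗[k] 𝒞.A₂) (diagIdeal k 𝒞.A₂) :=
    D588.curve_diag_invertible₂ 𝒞
  exact traceIdeal_eq_top_of_invertible _

/-- The graph ideal of every `R`-point of the first chart is invertible (trace form). -/
theorem traceIdeal_ker_liftPt₁ (x : 𝒞.A₁ →ₐ[k] R) :
    traceIdeal (RingHom.ker (liftPt₁ 𝒞 x)) = ⊤ :=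
  traceIdeal_graph_eq_top (traceIdeal_diag₁ 𝒞) (liftPt₁ 𝒞 x)

/-- The graph ideal of every `R`-point of the second chart is invertible (trace form). -/
theorem traceIdeal_ker_liftPt₂ (y : 𝒞.A₂ →ₐ[k] R) :
    traceIdeal (RingHom.ker (liftPt₂ 𝒞 y)) = ⊤ :=
  traceIdeal_graph_eq_top (traceIdeal_diag₂ 𝒞) (liftPt₂ 𝒞 y)

/-- Every `R`-point of the first chart of `𝒞.chart R` has invertible graph ideal. -/
theorem traceIdeal_ker_pt₁ (x : (𝒞.chart R).B₁ →ₐ[R] R) : traceIdeal (RingHom.ker x) = ⊤ :=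
  traceIdeal_graph_eq_top (traceIdeal_diag₁ 𝒞) x

/-- Every `R`-point of the second chart of `𝒞.chart R` has invertible graph ideal. -/
theorem traceIdeal_ker_pt₂ (y : (𝒞.chart R).B₂ →ₐ[R] R) : traceIdeal (RingHom.ker y) = ⊤ :=
  traceIdeal_graph_eq_top (traceIdeal_diag₂ 𝒞) y

theorem isInv_ptDatum₁_curve (x : 𝒞.A₁ →ₐ[k] R) :
    (ptDatum₁ (𝒞.chart R) (liftPt₁ 𝒞 x)).IsInv :=
  isInv_ptDatum₁ _ _ (traceIdeal_ker_liftPt₁ 𝒞 x)

theorem isInv_ptDatum₂_curve (y : 𝒞.A₂ →ₐ[k] R) :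
    (ptDatum₂ (𝒞.chart R) (liftPt₂ 𝒞 y)).IsInv :=
  isInv_ptDatum₂ _ _ (traceIdeal_ker_liftPt₂ 𝒞 y)

/-- **Point line bundle, chart 1.** -/
theorem ptGM₁_isLineBundle (x : 𝒞.A₁ →ₐ[k] R) : (ptGM₁ 𝒞 x).IsLineBundle :=
  (isInv_ptDatum₁_curve 𝒞 x).isLineBundle

/-- **Point line bundle, chart 2.** -/
theorem ptGM₂_isLineBundle (y : 𝒞.A₂ →ₐ[k] R) : (ptGM₂ 𝒞 y).IsLineBundle :=
  (isInv_ptDatum₂_curve 𝒞 y).isLineBundle

variable {R' : Type u} [CommRing R'] [Algebra k R'] (φ : R →ₐ[k] R')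

/-- **Base change of point bundles, chart 1**: `O(-Γ_x)` pulls back to `O(-Γ_{φ ∘ x})`. -/
theorem isBC_ptGM₁ (x : 𝒞.A₁ →ₐ[k] R) :
    GluedModule.IsBC (𝒞.chartHom φ) (ptGM₁ 𝒞 x) (ptGM₁ 𝒞 (φ.comp x)) :=
  isBC_ptDatum₁ (𝒞.chartHom φ) (liftPt₁ 𝒞 x) (liftPt₁ 𝒞 (φ.comp x))
    (liftPt₁_chartHom 𝒞 φ x) (span_range_chartHom_ψ₁ 𝒞 φ)
    (traceIdeal_ker_liftPt₁ 𝒞 x) (traceIdeal_ker_liftPt₁ 𝒞 (φ.comp x))

/-- **Base change of point bundles, chart 2**: `O(-Γ_y)` pulls back to `O(-Γ_{φ ∘ y})`. -/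
theorem isBC_ptGM₂ (y : 𝒞.A₂ →ₐ[k] R) :
    GluedModule.IsBC (𝒞.chartHom φ) (ptGM₂ 𝒞 y) (ptGM₂ 𝒞 (φ.comp y)) :=
  isBC_ptDatum₂ (𝒞.chartHom φ) (liftPt₂ 𝒞 y) (liftPt₂ 𝒞 (φ.comp y))
    (liftPt₂_chartHom 𝒞 φ y) (span_range_chartHom_ψ₂ 𝒞 φ)
    (traceIdeal_ker_liftPt₂ 𝒞 y) (traceIdeal_ker_liftPt₂ 𝒞 (φ.comp y))

/-- The bundle `O(-ε)` over `R` (constant point `ε`). -/
noncomputable def epsGM (R : Type u) [CommRing R] [Algebra k R] : GluedModule (𝒞.chart R) :=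
  ptGM₁ 𝒞 ((Algebra.ofId k R).comp 𝒞.ε)

theorem epsGM_isLineBundle : (epsGM 𝒞 R).IsLineBundle := ptGM₁_isLineBundle 𝒞 _

/-- `O(-ε)` is compatible with every base change. -/
theorem isBC_epsGM : GluedModule.IsBC (𝒞.chartHom φ) (epsGM 𝒞 R) (epsGM 𝒞 R') := by
  have h := isBC_ptGM₁ 𝒞 φ ((Algebra.ofId k R).comp 𝒞.ε)
  have e : φ.comp ((Algebra.ofId k R).comp 𝒞.ε) = (Algebra.ofId k R').comp 𝒞.ε := by
    apply AlgHom.ext
    intro a
    simp [Algebra.ofId_apply]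
  rw [e] at h
  exact h

end CurvePoint

end Fermat.Agent.S25.TWIST.G1.H3108
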